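import Mathlib
import Fermat.Agent.LT.H556.A0
import Fermat.Agent.LT.T1.Spec
import Fermat.Agent.LT.T2.Spec

/-!
# Row LT, tower T2, leaf T2.03 = `GPSCore` (owner helper386): THE CUT

OFF-MAIN.  Definitions, frozen sub-leaf Props and PROVED tops.  No hole, nothing assumed.
Bytes typed against: `LT/H556/A0.lean` (66d3374a), `LT/T1/Spec.lean` (e8ae48d6),
`LT/T2/Spec.lean` v3 (b934629a), byte-identical copies.

## The route: ELEMENTARY (no Poisson summation, no Fourier transform, no unfolding over `N(K)\G`,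
## no Iwasawa integration formula)

Notation: `n(v) = [[1, v], [0, 1]]`, `c_x(v) = x⁻¹ n(v) x`, `D` a fundamental domain of `K` in
`𝔸_K` with `0 < ν(D) < ∞`, `P θ (g) = ν(D)⁻¹ ∫_D θ(n(v) g) dν(v)` (constant term),
`(𝔄_x g)(h) = ν(D)⁻¹ ∫_D g(c_x(-v) h) dν(v)`, `R(g) θ (x) = ∫ θ(x h) g(h) dμ(h)`.

1. `R(g)(P θ)(x) = R(𝔄_x g) θ (x)` for all `x` (Fubini and left invariance of `μ`).
2. `θ₀ = ψ - Ψ` has `P θ₀ = 0` (`Ψ` is left `N(𝔸)`-invariant), hence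
   `R(f) θ₀ (x) = R((1 - 𝔄_x) f) θ₀ (x) = ... = R((1 - 𝔄_x)^M f) θ₀ (x)` for every `M`.
3. `(1 - 𝔄_x)^M f (h)` is the mean over `v₁, …, v_M ∈ D` of the `M`-th finite difference
   `Δ_{v₁} ⋯ Δ_{v_M} f (h)`, `Δ_v g (h) = g(h) - g(c_x(-v) h)`.
4. Reduction theory (`T1.SiegelCompactC`): `x = β z a ω`, `β ∈ B(K)`, `z` central, `a = diag(s,1)`
   in the ray, `ω` in a compact set, `s^n ≍ H(x)`.  Replace `x` by `x' = diag(1/m, 1) z a ω`
   (`m` a suitable positive integer, `ψ` and `Ψ` are left `B(K)`-invariant): then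
   `c_{x'}(v) = ω⁻¹ n(m v_f) ω · ω⁻¹ n(m v_∞ / s) ω`, the first factor lies in `U(𝔫)` (here
   `𝔫 ≠ 0`), and the `M`-th finite difference of the smooth function
   `t ↦ f(ω⁻¹ n(t) ω h)` of the archimedean variable with steps `m v_∞ / s` is `O(s^{-M})`.
5. `|R(f) θ₀ (x)| ≤ sup |(1 - 𝔄)^M f| · ∫_Ω |θ₀(x h)| dμ(h) ≤ C H(x)^{-N} ∫_{Ω'} |ψ(x h)| dμ(h)`.
6. `∫_{Ω'} |ψ(x h)| dμ(h) ≤ μ(Ω')^{1/2} (∫_{x Ω'} |ψ|²)^{1/2}` and
   `∫_{x Ω'} |ψ|² ≤ (multiplicity of x Ω' over GL₂(K) Z⁺ \ G) · ‖ψ‖₂²`, multiplicity `≤ C H(x)`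
   (lattice points `ξ ∈ K ∩ (compact × s · compact)`).

## The cut

* `KernelEst K 𝔫` (steps 1 - 5) and `LocalL2 K 𝔫` (step 6); PROVED top
  `gpsCore_of_kernel_local : KernelEst K 𝔫 → LocalL2 K 𝔫 → T2.GPSCore K 𝔫`.
* `FDBound K 𝔫` (step 4: the analytic core, a POINTWISE statement on `f`, no measure, no `ψ`);
  `LeafSoft1 K : T1Out → 𝔫 ≠ ⊥ → FDBound K 𝔫 → KernelEst K 𝔫` (steps 1, 2, 3, 5: measure theory).
* `LeafFD K : T1Out → 𝔫 ≠ ⊥ → FDBound K 𝔫`, `LeafLocalL2 K : T1Out → 𝔫 ≠ ⊥ → LocalL2 K 𝔫`.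
* PROVED `leaf03_of_leaves : LeafFD K → LeafSoft1 K → LeafLocalL2 K → T2.Leaf03 K`.
-/

set_option autoImplicit false

open IsDedekindDomain NumberField MeasureTheory
open Fermat.Agent.LT.H556.A0

noncomputable section

namespace Fermat.Agent.LT.T2.H386

open Fermat.Agent.LT.T2

attribute [local instance] Fermat.Agent.LT.T2.borelG

variable {K : Type} [Field K] [NumberField K]

/-! ## 1. Vocabulary -/

/-- The upper unipotent element `n(x) = [[1, x], [0, 1]]` of `GL₂(𝔸_K)`. -/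
def unip386 (x : Adl K) : G K :=
  ⟨!![1, x; 0, 1], !![1, -x; 0, 1],
    by ext i j; fin_cases i <;> fin_cases j <;> simp [Matrix.mul_apply, Fin.sum_univ_two],
    by ext i j; fin_cases i <;> fin_cases j <;> simp [Matrix.mul_apply, Fin.sum_univ_two]⟩

theorem unip386_coe (x : Adl K) :
    ((unip386 x : G K) : Matrix (Fin 2) (Fin 2) (Adl K)) = !![1, x; 0, 1] := rfl

/-- The conjugate `c_x(v) = x⁻¹ n(v) x`. -/
def conjUnip386 (x : G K) (v : Adl K) : G K := x⁻¹ * unip386 v * x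

/-- The first difference `Δ_v g (h) = g(h) - g(c_x(-v) h)`. -/
def diff386 (x : G K) (v : Adl K) (g : G K → ℂ) : G K → ℂ :=
  fun h => g h - g (conjUnip386 x (-v) * h)

/-- The iterated difference `Δ_{v₁} ⋯ Δ_{v_M} g`. -/
def fdiff386 (x : G K) : List (Adl K) → (G K → ℂ) → (G K → ℂ)
  | [], g => g
  | v :: vs, g => fdiff386 x vs (diff386 x v g)

/-! ## 2. The first cut: kernel estimate and local `L²` bound -/

/-- **KERNEL ESTIMATE** (steps 1 - 5): `|R(f)ψ(x) - R(f)Ψ(x)| H(x)^N ≤ C ∫_Ω |ψ(x h)| dμ(h)` on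
`{H ≥ c}`, `Ω` compact. -/
def KernelEst (K : Type) [Field K] [NumberField K] (𝔫 : Ideal (𝓞 K)) : Prop :=
  ∀ (F : Frame K) (f : G K → ℂ), IsTestFn 𝔫 f → ∀ N : ℕ,
    ∃ (C c : ℝ) (Ω : Set (G K)), 0 ≤ C ∧ 0 < c ∧ IsCompact Ω ∧
      ∀ ψ Ψ : G K → ℂ, IsAutFn 𝔫 ψ → IsConstTerm ψ Ψ →
        ∀ (x : G K) (t : ℝ), T1.HasHeight K x t → c ≤ t →
          ‖conv F f ψ x - conv F f Ψ x‖ * t ^ N ≤ C * ∫ h in Ω, ‖ψ (x * h)‖ ∂F.μ

/-- **LOCAL `L²` BOUND** (step 6): `∫_Ω |ψ(x h)| dμ(h) ≤ C H(x) ‖ψ‖₂` on `{H ≥ c}`, for every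
compact `Ω`.  (Cauchy--Schwarz; the multiplicity of `x Ω` over `GL₂(K) Z⁺ \ GL₂(𝔸_K)` is
`O(H(x))`: after `T1.SiegelCompactC` and `T1.SiegelSepC` it is a count of `ξ ∈ K` in
`compact × s · compact`, `s^n ≍ H(x)`.) -/
def LocalL2 (K : Type) [Field K] [NumberField K] (𝔫 : Ideal (𝓞 K)) : Prop :=
  ∀ (F : Frame K) (Ω : Set (G K)), IsCompact Ω →
    ∃ C c : ℝ, 0 < c ∧ ∀ ψ : G K → ℂ, IsAutFn 𝔫 ψ →
      ∀ (x : G K) (t : ℝ), T1.HasHeight K x t → c ≤ t →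
        ∫ h in Ω, ‖ψ (x * h)‖ ∂F.μ ≤ C * t * Real.sqrt (nsq F ψ)

/-- TOP of the first cut. -/
theorem gpsCore_of_kernel_local {𝔫 : Ideal (𝓞 K)} (h1 : KernelEst K 𝔫) (h2 : LocalL2 K 𝔫) :
    GPSCore K 𝔫 := by
  intro F f hf N
  obtain ⟨C₁, c₁, Ω, hC₁, hc₁, hΩ, hK⟩ := h1 F f hf (N + 1)
  obtain ⟨C₂, c₂, hc₂, hL⟩ := h2 F Ω hΩ
  refine ⟨C₁ * C₂, max c₁ c₂, lt_max_of_lt_left hc₁, ?_⟩
  intro ψ Ψ hψ hΨ x t hx ht
  have ht₁ : c₁ ≤ t := le_trans (le_max_left _ _) ht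
  have ht₂ : c₂ ≤ t := le_trans (le_max_right _ _) ht
  have htpos : 0 < t := lt_of_lt_of_le hc₁ ht₁
  have hA := hK ψ Ψ hψ hΨ x t hx ht₁
  have hB := hL ψ hψ x t hx ht₂
  have hC : ‖conv F f ψ x - conv F f Ψ x‖ * t ^ (N + 1)
      ≤ C₁ * (C₂ * t * Real.sqrt (nsq F ψ)) :=
    le_trans hA (mul_le_mul_of_nonneg_left hB hC₁)
  have hD : (‖conv F f ψ x - conv F f Ψ x‖ * t ^ N) * t
      ≤ (C₁ * C₂ * Real.sqrt (nsq F ψ)) * t := by
    calc (‖conv F f ψ x - conv F f Ψ x‖ * t ^ N) * t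
        = ‖conv F f ψ x - conv F f Ψ x‖ * t ^ (N + 1) := by ring
      _ ≤ C₁ * (C₂ * t * Real.sqrt (nsq F ψ)) := hC
      _ = (C₁ * C₂ * Real.sqrt (nsq F ψ)) * t := by ring
  exact le_of_mul_le_mul_right hD htpos

/-! ## 3. The second cut: the analytic core `FDBound` -/

/-- **FINITE DIFFERENCE BOUND** (step 4; the analytic core of `GPSCore`).  A POINTWISE statement
on the test function: no measure, no automorphic function.  For a compact set `𝒟` of adeles and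
`N` there are `M`, `C`, `c` and a compact `W ⊆ GL₂(𝔸_K)` such that every `x` of height `t ≥ c` is
`β x'` with `β ∈ B(K)`, all conjugates `x'⁻¹ n(v) x'`, `v ∈ 𝒟`, in `W`, and all `M`-th finite
differences of `f` along these conjugates, with steps in `𝒟`, bounded by `C t^{-N}`.

Proof: `T1.SiegelCompactC` gives `x = β₀ z a ω`; `x' = diag(1/m, 1) z a ω`,
`β = β₀ diag(m, 1)`; `c_{x'}(v) = ω⁻¹ n(m v / σ_s) ω` (`σ_s` = the idele `s` at the infinite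
places, `1` at the finite places), so `W = Ω⁻¹ n(m 𝒟̃) Ω`; `m` is a positive integer such that
`ω⁻¹ n(m u) ω ∈ U(𝔫)` for `ω ∈ Ω` and `u` in the `M`-fold sum of the finite part of `𝒟`
(compact sets of finite adeles have bounded denominators, `𝔫 ∩ ℤ ≠ 0`); `f` is left
`U(𝔫)`-invariant, so the finite parts of the steps act trivially, and the archimedean steps are
`m v_∞ / s`; the `M`-th derivative of `t ↦ f(ω⁻¹ n(t) ω h)` is bounded uniformly in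
`ω ∈ Ω`, `h` (`T2.IsSmoothAtInf` with a family which also moves `ω_∞` and `h_∞`, right
`U(𝔫)`-invariance and compact support); `M = [K:ℚ] N`. -/
def FDBound (K : Type) [Field K] [NumberField K] (𝔫 : Ideal (𝓞 K)) : Prop :=
  ∀ f : G K → ℂ, IsTestFn 𝔫 f → ∀ 𝒟 : Set (Adl K), IsCompact 𝒟 → ∀ N : ℕ,
    ∃ (C c : ℝ) (M : ℕ) (W : Set (G K)), 0 ≤ C ∧ 0 < c ∧ IsCompact W ∧
      ∀ (x : G K) (t : ℝ), T1.HasHeight K x t → c ≤ t →
        ∃ (β : GL (Fin 2) K) (x' : G K), T1.IsUpperRat K β ∧ x = T1.ratG K β * x' ∧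
          (∀ v ∈ 𝒟, conjUnip386 x' v ∈ W) ∧
          ∀ vs : List (Adl K), vs.length = M → (∀ v ∈ vs, v ∈ 𝒟) →
            ∀ h : G K, ‖fdiff386 x' vs f h‖ * t ^ N ≤ C

/-! ## 4. The sub-leaves -/

/-- **T2.03a** THE ANALYTIC CORE: `FDBound` from T1.  (≈ 3k lines; the owner splits:
(i) contraction of compact sets of finite adeles by integers, (ii) uniform bounds for the
derivatives of a test function, (iii) finite differences of a `C^M` function on `ℝ^d`.) -/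
def LeafFD (K : Type) [Field K] [NumberField K] : Prop :=
  T1.T1Out K → ∀ 𝔫 : Ideal (𝓞 K), 𝔫 ≠ ⊥ → FDBound K 𝔫

/-- **T2.03b** SOFT PART: `FDBound ⇒ KernelEst` (steps 1, 2, 3, 5: Fubini, left invariance of
Haar measures, `Ψ` is left `B(K) N(𝔸)`-invariant by the quantifiers of `T2.IsConstTerm`).
(≈ 1k lines.) -/
def LeafSoft1 (K : Type) [Field K] [NumberField K] : Prop :=
  T1.T1Out K → ∀ 𝔫 : Ideal (𝓞 K), 𝔫 ≠ ⊥ → FDBound K 𝔫 → KernelEst K 𝔫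

/-- **T2.03c** LOCAL `L²` BOUND from T1.  (≈ 2k lines; the owner splits: multiplicity count and
integration over the translates of the fundamental domain.) -/
def LeafLocalL2 (K : Type) [Field K] [NumberField K] : Prop :=
  T1.T1Out K → ∀ 𝔫 : Ideal (𝓞 K), 𝔫 ≠ ⊥ → LocalL2 K 𝔫

/-- THE TOP of T2.03: the three sub-leaves give `T2.Leaf03`. -/
theorem leaf03_of_leaves (hFD : LeafFD K) (hS : LeafSoft1 K) (hL : LeafLocalL2 K) :
    Leaf03 K := by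
  intro hT1 𝔫 h𝔫
  exact gpsCore_of_kernel_local (hS hT1 𝔫 h𝔫 (hFD hT1 𝔫 h𝔫)) (hL hT1 𝔫 h𝔫)

end Fermat.Agent.LT.T2.H386

end
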