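import Mathlib
import Fermat.Agent.LT.H556.A0
import Fermat.Agent.LT.T1.Spec
import Fermat.Agent.LT.T2.Spec
import Fermat.Agent.LT.T2.H386.GPSSpec

/-!
# Row LT, T2.03b (helper386): algebra and topology of the unipotent conjugates

OFF-MAIN.  `unip386` is a continuous homomorphism `𝔸_K → GL₂(𝔸_K)`, so is every conjugate
`conjUnip386 x`; a number field is countable; the constant term of an automorphic function is
left invariant under `N(𝔸_K)` (from the quantifiers of `T2.IsConstTerm`).
-/

set_option autoImplicit false

open IsDedekindDomain NumberField MeasureTheory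
open Fermat.Agent.LT.H556.A0

noncomputable section

namespace Fermat.Agent.LT.T2.H386

open Fermat.Agent.LT.T2

variable {K : Type} [Field K] [NumberField K]

/-! ## 1. `unip386` -/

theorem unip386_add (u v : Adl K) : unip386 (u + v) = unip386 u * unip386 v := by
  apply Units.ext
  rw [Units.val_mul, unip386_coe, unip386_coe, unip386_coe]
  ext i j
  fin_cases i <;> fin_cases j <;> simp [Matrix.mul_apply, Fin.sum_univ_two, add_comm]

theorem unip386_zero : unip386 (0 : Adl K) = 1 := by
  apply Units.ext
  rw [unip386_coe]
  ext i j
  fin_cases i <;> fin_cases j <;> simp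

theorem unip386_neg (v : Adl K) : unip386 (-v) = (unip386 v)⁻¹ := by
  rw [eq_inv_iff_mul_eq_one, ← unip386_add, neg_add_cancel, unip386_zero]

theorem continuous_unip386 : Continuous (unip386 : Adl K → G K) := by
  rw [Units.continuous_iff]
  constructor
  · show Continuous fun x : Adl K => (!![1, x; 0, 1] : Matrix (Fin 2) (Fin 2) (Adl K))
    refine continuous_matrix fun i j => ?_
    fin_cases i <;> fin_cases j <;> simp <;> fun_prop
  · show Continuous fun x : Adl K => (!![1, -x; 0, 1] : Matrix (Fin 2) (Fin 2) (Adl K))
    refine continuous_matrix fun i j => ?_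
    fin_cases i <;> fin_cases j <;> simp <;> fun_prop

/-! ## 2. The conjugates -/

theorem conjUnip386_add (x : G K) (u v : Adl K) :
    conjUnip386 x (u + v) = conjUnip386 x u * conjUnip386 x v := by
  unfold conjUnip386
  rw [unip386_add]
  group

theorem conjUnip386_zero (x : G K) : conjUnip386 x 0 = 1 := by
  unfold conjUnip386
  rw [unip386_zero]
  group

theorem conjUnip386_neg (x : G K) (v : Adl K) : conjUnip386 x (-v) = (conjUnip386 x v)⁻¹ := by
  rw [eq_inv_iff_mul_eq_one, ← conjUnip386_add, neg_add_cancel, conjUnip386_zero]

theorem conjUnip386_comm (x : G K) (u v : Adl K) :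
    conjUnip386 x u * conjUnip386 x v = conjUnip386 x v * conjUnip386 x u := by
  rw [← conjUnip386_add, ← conjUnip386_add, add_comm]

theorem unip386_mul (x : G K) (v : Adl K) : unip386 v * x = x * conjUnip386 x v := by
  unfold conjUnip386
  group

theorem continuous_conjUnip386 (x : G K) : Continuous (conjUnip386 x) := by
  unfold conjUnip386
  exact (continuous_const.mul continuous_unip386).mul continuous_const

/-! ## 3. Countability -/

theorem countable_numberField386 (K : Type) [Field K] [NumberField K] : Countable K :=
  Function.Injective.countable (Module.finBasis ℚ K).equivFun.injective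

theorem countable_princ386 (K : Type) [Field K] [NumberField K] :
    Countable (T1.princ K) := by
  haveI := countable_numberField386 K
  have h : Function.Surjective
      (fun ξ : K => (⟨algebraMap K (Adl K) ξ, ⟨ξ, rfl⟩⟩ : T1.princ K)) := by
    rintro ⟨y, ξ, rfl⟩
    exact ⟨ξ, rfl⟩
  exact h.countable

end Fermat.Agent.LT.T2.H386

end
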