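import Mathlib
import Fermat.Agent.LT.H556.A0
import Fermat.Agent.LT.T1.Spec
import Fermat.Agent.LT.T2.Spec
import Fermat.Agent.LT.T2.H386.GPSSpec
import Fermat.Agent.LT.T2.H386.Soft1A

/-!
# Row LT, T2.03b (helper386): the constant term

OFF-MAIN.  From the quantifiers of `T2.IsConstTerm`: the constant term `Ψ` of an automorphic
function `ψ` is left invariant under `N(𝔸_K)` and under the upper triangular rational matrices,
it is bounded and continuous.
-/

set_option autoImplicit false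

open IsDedekindDomain NumberField MeasureTheory
open scoped Pointwise
open Fermat.Agent.LT.H556.A0

noncomputable section

namespace Fermat.Agent.LT.T2.H386

open Fermat.Agent.LT.T2

attribute [local instance] Fermat.Agent.LT.T2.borelG

variable {K : Type} [Field K] [NumberField K]

/-- The Borel `σ`-algebra of the adeles (local instance of the files of helper386). -/
local instance borelAdl386 : MeasurableSpace (Adl K) := borel (Adl K)

local instance borelSpaceAdl386 : BorelSpace (Adl K) := ⟨rfl⟩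

local instance borelSpaceG386 : BorelSpace (G K) := ⟨rfl⟩

/-- The defining equation of the constant term, for `unip386`. -/
theorem constTerm_eq386 {ψ Ψ : G K → ℂ} (h : IsConstTerm ψ Ψ) (ν : Measure (Adl K))
    (hν : ν.IsAddHaarMeasure) (D : Set (Adl K))
    (hD : IsAddFundamentalDomain (T1.princ K) D ν) (g : G K) :
    ∫ x in D, ψ (unip386 x * g) ∂ν = (((ν D).toReal : ℝ) : ℂ) * Ψ g :=
  h ν hν D hD unip386 unip386_coe g

/-- `Ψ` is left invariant under `N(𝔸_K)`. -/
theorem constTerm_unip386 {ψ Ψ : G K → ℂ} (h : IsConstTerm ψ Ψ) (ν : Measure (Adl K))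
    (hν : ν.IsAddHaarMeasure) (D : Set (Adl K))
    (hD : IsAddFundamentalDomain (T1.princ K) D ν) (hD0 : ν D ≠ 0) (hDtop : ν D ≠ ⊤)
    (u : Adl K) (g : G K) : Ψ (unip386 u * g) = Ψ g := by
  have := hν
  have hD' : IsAddFundamentalDomain (T1.princ K) (u +ᵥ D) ν := hD.vadd_of_comm u
  have h1 := constTerm_eq386 h ν hν (u +ᵥ D) hD' g
  have h2 := constTerm_eq386 h ν hν D hD (unip386 u * g)
  have h3 : ∫ x in u +ᵥ D, ψ (unip386 x * g) ∂ν
      = ∫ y in D, ψ (unip386 y * (unip386 u * g)) ∂ν := by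
    have himg : u +ᵥ D = (fun y => u + y) '' D := rfl
    rw [himg, (measurePreserving_add_left ν u).setIntegral_image_emb
      (MeasurableEquiv.addLeft u).measurableEmbedding]
    refine setIntegral_congr_fun₀ hD.nullMeasurableSet ?_
    intro y _
    show ψ (unip386 (u + y) * g) = ψ (unip386 y * (unip386 u * g))
    rw [add_comm, unip386_add, mul_assoc]
  have h4 : ν (u +ᵥ D) = ν D := measure_vadd ν u D
  rw [h3, h2, h4] at h1
  have hne : (((ν D).toReal : ℝ) : ℂ) ≠ 0 := by
    have : (ν D).toReal ≠ 0 := ENNReal.toReal_ne_zero.mpr ⟨hD0, hDtop⟩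
    exact_mod_cast this
  exact mul_left_cancel₀ hne h1

/-! ## Invariance under the upper triangular rational matrices -/

/-- Multiplication by a nonzero element of `K` as a homeomorphism of `𝔸_K`. -/
def scaleHomeo386 (κ : K) (hκ : κ ≠ 0) : Adl K ≃ₜ Adl K where
  toFun x := algebraMap K (Adl K) κ * x
  invFun x := algebraMap K (Adl K) κ⁻¹ * x
  left_inv x := by
    show algebraMap K (Adl K) κ⁻¹ * (algebraMap K (Adl K) κ * x) = x
    rw [← mul_assoc, ← map_mul, inv_mul_cancel₀ hκ, map_one, one_mul]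
  right_inv x := by
    show algebraMap K (Adl K) κ * (algebraMap K (Adl K) κ⁻¹ * x) = x
    rw [← mul_assoc, ← map_mul, mul_inv_cancel₀ hκ, map_one, one_mul]
  continuous_toFun := continuous_const.mul continuous_id
  continuous_invFun := continuous_const.mul continuous_id

theorem scaleHomeo386_apply (κ : K) (hκ : κ ≠ 0) (x : Adl K) :
    scaleHomeo386 κ hκ x = algebraMap K (Adl K) κ * x := rfl

/-- The same map as an additive equivalence. -/
def scaleAddEquiv386 (κ : K) (hκ : κ ≠ 0) : Adl K ≃+ Adl K :=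
  { (scaleHomeo386 κ hκ).toEquiv with
    map_add' := fun x y => by
      show algebraMap K (Adl K) κ * (x + y)
        = algebraMap K (Adl K) κ * x + algebraMap K (Adl K) κ * y
      rw [mul_add] }

/-- Multiplication by `κ⁻¹` on the principal adeles. -/
def scalePrinc386 (κ : K) (hκ : κ ≠ 0) : T1.princ K ≃ T1.princ K where
  toFun g := ⟨algebraMap K (Adl K) κ⁻¹ * (g : Adl K), by
    obtain ⟨ξ, hξ⟩ := g.2
    exact ⟨κ⁻¹ * ξ, by
      show algebraMap K (Adl K) (κ⁻¹ * ξ) = algebraMap K (Adl K) κ⁻¹ * (g : Adl K)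
      rw [map_mul]
      congr 1⟩⟩
  invFun g := ⟨algebraMap K (Adl K) κ * (g : Adl K), by
    obtain ⟨ξ, hξ⟩ := g.2
    exact ⟨κ * ξ, by
      show algebraMap K (Adl K) (κ * ξ) = algebraMap K (Adl K) κ * (g : Adl K)
      rw [map_mul]
      congr 1⟩⟩
  left_inv g := by
    apply Subtype.ext
    show algebraMap K (Adl K) κ * (algebraMap K (Adl K) κ⁻¹ * (g : Adl K)) = g
    rw [← mul_assoc, ← map_mul, mul_inv_cancel₀ hκ, map_one, one_mul]
  right_inv g := by
    apply Subtype.ext
    show algebraMap K (Adl K) κ⁻¹ * (algebraMap K (Adl K) κ * (g : Adl K)) = g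
    rw [← mul_assoc, ← map_mul, inv_mul_cancel₀ hκ, map_one, one_mul]

/-- The image of a fundamental domain under multiplication by `κ ∈ Kˣ` is a fundamental domain
for the image measure. -/
theorem isAddFundamentalDomain_scale386 (ν : Measure (Adl K)) (D : Set (Adl K))
    (hD : IsAddFundamentalDomain (T1.princ K) D ν) (κ : K) (hκ : κ ≠ 0) :
    IsAddFundamentalDomain (T1.princ K) ((scaleHomeo386 κ hκ) '' D)
      (Measure.map (scaleHomeo386 κ hκ) ν) := by
  have hqmp : Measure.QuasiMeasurePreserving (scaleHomeo386 κ hκ).toEquiv.symm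
      (Measure.map (scaleHomeo386 κ hκ) ν) ν := by
    have hmp : MeasurePreserving (scaleHomeo386 κ hκ).toMeasurableEquiv ν
        (Measure.map (scaleHomeo386 κ hκ) ν) :=
      ⟨(scaleHomeo386 κ hκ).toMeasurableEquiv.measurable, rfl⟩
    exact (hmp.symm _).quasiMeasurePreserving
  refine hD.image_of_equiv (scaleHomeo386 κ hκ).toEquiv hqmp (scalePrinc386 κ hκ) ?_
  intro g x
  show algebraMap K (Adl K) κ * (algebraMap K (Adl K) κ⁻¹ * (g : Adl K) + x)
    = (g : Adl K) + algebraMap K (Adl K) κ * x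
  rw [mul_add, ← mul_assoc, ← map_mul, mul_inv_cancel₀ hκ, map_one, one_mul]

/-- Commutation of `n(v)` with an upper triangular rational matrix. -/
theorem unip386_mul_ratG (β : GL (Fin 2) K) (hβ : T1.IsUpperRat K β) (κ : K)
    (hκ : (β : Matrix (Fin 2) (Fin 2) K) 0 0 * κ = (β : Matrix (Fin 2) (Fin 2) K) 1 1)
    (v : Adl K) :
    unip386 v * T1.ratG K β = T1.ratG K β * unip386 (algebraMap K (Adl K) κ * v) := by
  have h10 : (β : Matrix (Fin 2) (Fin 2) K) 1 0 = 0 := hβ
  apply Units.ext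
  rw [Units.val_mul, Units.val_mul, unip386_coe, unip386_coe]
  have hcoe : ((T1.ratG K β : G K) : Matrix (Fin 2) (Fin 2) (Adl K))
      = (β : Matrix (Fin 2) (Fin 2) K).map (algebraMap K (Adl K)) := rfl
  rw [hcoe]
  have hκ' : algebraMap K (Adl K) ((β : Matrix (Fin 2) (Fin 2) K) 0 0) * algebraMap K (Adl K) κ
      = algebraMap K (Adl K) ((β : Matrix (Fin 2) (Fin 2) K) 1 1) := by
    rw [← map_mul, hκ]
  ext i j
  fin_cases i <;> fin_cases j
  · simp [Matrix.mul_apply, Fin.sum_univ_two, h10]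
  · simp only [Fin.zero_eta, Fin.isValue, Fin.mk_one, Matrix.mul_apply, Fin.sum_univ_two,
      Matrix.of_apply, Matrix.cons_val', Matrix.cons_val_zero, Matrix.cons_val_fin_one,
      Matrix.cons_val_one, Matrix.map_apply, one_mul, mul_one]
    rw [← mul_assoc, hκ']
    ring
  · simp [Matrix.mul_apply, Fin.sum_univ_two, h10]
  · simp [Matrix.mul_apply, Fin.sum_univ_two, h10]

/-- The ratio `κ = d / a` of the diagonal entries of an upper triangular rational matrix. -/
theorem exists_ratio386 (β : GL (Fin 2) K) (hβ : T1.IsUpperRat K β) :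
    ∃ κ : K, κ ≠ 0 ∧
      (β : Matrix (Fin 2) (Fin 2) K) 0 0 * κ = (β : Matrix (Fin 2) (Fin 2) K) 1 1 := by
  have h10 : (β : Matrix (Fin 2) (Fin 2) K) 1 0 = 0 := hβ
  have hdet : (β : Matrix (Fin 2) (Fin 2) K).det ≠ 0 :=
    ((Matrix.isUnit_iff_isUnit_det _).mp β.isUnit).ne_zero
  rw [Matrix.det_fin_two, h10, mul_zero, sub_zero] at hdet
  have ha : (β : Matrix (Fin 2) (Fin 2) K) 0 0 ≠ 0 := left_ne_zero_of_mul hdet
  have hd : (β : Matrix (Fin 2) (Fin 2) K) 1 1 ≠ 0 := right_ne_zero_of_mul hdet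
  exact ⟨(β : Matrix (Fin 2) (Fin 2) K) 1 1 / (β : Matrix (Fin 2) (Fin 2) K) 0 0,
    div_ne_zero hd ha, mul_div_cancel₀ _ ha⟩

/-- `Ψ` is left invariant under the upper triangular rational matrices. -/
theorem constTerm_ratG386 {𝔫 : Ideal (𝓞 K)} {ψ Ψ : G K → ℂ} (hψ : IsAutFn 𝔫 ψ)
    (h : IsConstTerm ψ Ψ) (ν : Measure (Adl K))
    (hν : ν.IsAddHaarMeasure) (D : Set (Adl K))
    (hD : IsAddFundamentalDomain (T1.princ K) D ν) (hD0 : ν D ≠ 0) (hDtop : ν D ≠ ⊤)
    (β : GL (Fin 2) K) (hβ : T1.IsUpperRat K β) (g : G K) :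
    Ψ (T1.ratG K β * g) = Ψ g := by
  have := hν
  obtain ⟨κ, hκ0, hκ⟩ := exists_ratio386 β hβ
  set e := scaleHomeo386 κ hκ0 with he
  have hν' : (Measure.map e ν).IsAddHaarMeasure :=
    AddEquiv.isAddHaarMeasure_map ν (scaleAddEquiv386 κ hκ0) e.continuous e.symm.continuous
  have hD' := isAddFundamentalDomain_scale386 ν D hD κ hκ0
  have h1 := constTerm_eq386 h (Measure.map e ν) hν' (e '' D) hD' g
  have h2 := constTerm_eq386 h ν hν D hD (T1.ratG K β * g)
  have h3 : ∫ x in e '' D, ψ (unip386 x * g) ∂(Measure.map e ν)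
      = ∫ v in D, ψ (unip386 v * (T1.ratG K β * g)) ∂ν := by
    have hmap : Measure.map e ν = Measure.map e.toMeasurableEquiv ν := rfl
    rw [hmap, setIntegral_map_equiv]
    have hpre : e.toMeasurableEquiv ⁻¹' (e '' D) = D := Set.preimage_image_eq _ e.injective
    rw [hpre]
    refine setIntegral_congr_fun₀ hD.nullMeasurableSet ?_
    intro v _
    show ψ (unip386 (algebraMap K (Adl K) κ * v) * g) = ψ (unip386 v * (T1.ratG K β * g))
    rw [← mul_assoc (unip386 v), unip386_mul_ratG β hβ κ hκ v, mul_assoc]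
    exact (hψ.left_inv β _).symm
  have h4 : (Measure.map e ν) (e '' D) = ν D := by
    have hmap : Measure.map e ν = Measure.map e.toMeasurableEquiv ν := rfl
    rw [hmap, MeasurableEquiv.map_apply]
    congr 1
    exact Set.preimage_image_eq _ e.injective
  rw [h3, h2, h4] at h1
  have hne : (((ν D).toReal : ℝ) : ℂ) ≠ 0 := by
    have : (ν D).toReal ≠ 0 := ENNReal.toReal_ne_zero.mpr ⟨hD0, hDtop⟩
    exact_mod_cast this
  exact mul_left_cancel₀ hne h1

end Fermat.Agent.LT.T2.H386

end
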