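import Mathlib
import Fermat.Agent.LT.H556.A0
import Fermat.Agent.LT.T1.Spec
import Fermat.Agent.LT.T2.Spec
import Fermat.Agent.LT.T2.H386.GPSSpec
import Fermat.Agent.LT.T2.H386.Soft1A
import Fermat.Agent.LT.T2.H386.Soft1B

/-!
# Row LT, T2.03b (helper386): Fubini

OFF-MAIN.  `∫ (∫_D θ(n(v) x h) dν(v)) g(h) dμ(h) = ∫ θ(x h) (∫_D g(c_x(-v) h) dν(v)) dμ(h)` for a
bounded continuous `θ` and a continuous `g` of compact support (Fubini twice and left invariance
of the Haar measure `μ`); continuity of parametric integrals over a relatively compact set.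
-/

set_option autoImplicit false
set_option linter.unusedSectionVars false
set_option linter.style.haveILetI false

open IsDedekindDomain NumberField MeasureTheory
open scoped Pointwise
open Fermat.Agent.LT.H556.A0

noncomputable section

namespace Fermat.Agent.LT.T2.H386

open Fermat.Agent.LT.T2

attribute [local instance] Fermat.Agent.LT.T2.borelG

variable {K : Type} [Field K] [NumberField K]

attribute [local instance] borelAdl386 borelSpaceAdl386 borelSpaceG386

section

variable [LocallyCompactSpace (G K)] [SecondCountableTopology (G K)] [T2Space (G K)]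
  [LocallyCompactSpace (Adl K)] [SecondCountableTopology (Adl K)] [T2Space (Adl K)]

/-- Continuity of a parametric integral over a relatively compact set of finite measure. -/
theorem continuous_setIntegral386 (ν : Measure (Adl K)) (D : Set (Adl K)) (hDtop : ν D ≠ ⊤)
    (hDc : IsCompact (closure D)) (Φ : G K → Adl K → ℂ)
    (hΦ : Continuous (Function.uncurry Φ)) :
    Continuous (fun g => ∫ v in D, Φ g v ∂ν) := by
  haveI : IsFiniteMeasure (ν.restrict D) := ⟨by
    rw [Measure.restrict_apply MeasurableSet.univ, Set.univ_inter]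
    exact hDtop.lt_top⟩
  have h := continuous_parametric_integral_of_continuous (μ := ν.restrict D) hΦ hDc
  have hrr : (ν.restrict D).restrict (closure D) = ν.restrict D := by
    rw [Measure.restrict_restrict isClosed_closure.measurableSet,
      Set.inter_eq_right.mpr subset_closure]
  simpa only [hrr] using h

/-- The constant term is bounded. -/
theorem constTerm_bound386 {ψ Ψ : G K → ℂ} (h : IsConstTerm ψ Ψ) (ν : Measure (Adl K))
    (hν : ν.IsAddHaarMeasure) (D : Set (Adl K))
    (hD : IsAddFundamentalDomain (T1.princ K) D ν) (hD0 : ν D ≠ 0) (hDtop : ν D ≠ ⊤)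
    (C : ℝ) (hC : ∀ g, ‖ψ g‖ ≤ C) (g : G K) : ‖Ψ g‖ ≤ C := by
  have h1 := constTerm_eq386 h ν hν D hD g
  have hpos : 0 < (ν D).toReal := ENNReal.toReal_pos hD0 hDtop
  have h2 : ‖∫ x in D, ψ (unip386 x * g) ∂ν‖ ≤ C * (ν D).toReal :=
    norm_setIntegral_le_of_norm_le_const hDtop.lt_top (fun x _ => hC _)
  rw [h1, norm_mul, Complex.norm_real, Real.norm_of_nonneg hpos.le, mul_comm] at h2
  exact le_of_mul_le_mul_right h2 hpos

/-- The constant term is continuous. -/
theorem constTerm_continuous386 {ψ Ψ : G K → ℂ} (hψ : Continuous ψ) (h : IsConstTerm ψ Ψ)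
    (ν : Measure (Adl K)) (hν : ν.IsAddHaarMeasure) (D : Set (Adl K))
    (hD : IsAddFundamentalDomain (T1.princ K) D ν) (hD0 : ν D ≠ 0) (hDtop : ν D ≠ ⊤)
    (hDc : IsCompact (closure D)) : Continuous Ψ := by
  have hne : (((ν D).toReal : ℝ) : ℂ) ≠ 0 := by
    have : (ν D).toReal ≠ 0 := ENNReal.toReal_ne_zero.mpr ⟨hD0, hDtop⟩
    exact_mod_cast this
  have hΨ : Ψ = fun g => (((ν D).toReal : ℝ) : ℂ)⁻¹ * ∫ x in D, ψ (unip386 x * g) ∂ν := by
    funext g
    rw [constTerm_eq386 h ν hν D hD g, ← mul_assoc, inv_mul_cancel₀ hne, one_mul]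
  rw [hΨ]
  refine continuous_const.mul ?_
  refine continuous_setIntegral386 ν D hDtop hDc (fun g x => ψ (unip386 x * g)) ?_
  exact hψ.comp ((continuous_unip386.comp continuous_snd).mul continuous_fst)

/-! ## Fubini -/

/-- Integrability on the product, first form. -/
theorem integrable_prod_one386 (μ : Measure (G K)) [μ.IsHaarMeasure] (ν : Measure (Adl K))
    (D : Set (Adl K)) (hDtop : ν D ≠ ⊤) (x : G K) (θ g : G K → ℂ)
    (hθ : Continuous θ) (Cθ : ℝ) (hCθ : ∀ y, ‖θ y‖ ≤ Cθ) (hg : Continuous g)
    (hgc : HasCompactSupport g) :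
    Integrable (Function.uncurry fun (h : G K) (v : Adl K) =>
      θ (x * (conjUnip386 x v * h)) * g h) (μ.prod (ν.restrict D)) := by
  haveI : IsFiniteMeasure (ν.restrict D) := ⟨by
    rw [Measure.restrict_apply MeasurableSet.univ, Set.univ_inter]
    exact hDtop.lt_top⟩
  have hgi : Integrable g μ := hg.integrable_of_hasCompactSupport hgc
  have hdom : Integrable (fun z : G K × Adl K => (Cθ * ‖g z.1‖) * (1 : ℝ))
      (μ.prod (ν.restrict D)) :=
    Integrable.mul_prod (f := fun h : G K => Cθ * ‖g h‖) (g := fun _ : Adl K => (1 : ℝ))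
      (hgi.norm.const_mul Cθ) (integrable_const 1)
  refine hdom.mono' ?_ ?_
  · refine Continuous.aestronglyMeasurable ?_
    have h1 : Continuous fun z : G K × Adl K => x * (conjUnip386 x z.2 * z.1) :=
      continuous_const.mul (((continuous_conjUnip386 x).comp continuous_snd).mul continuous_fst)
    exact (hθ.comp h1).mul (hg.comp continuous_fst)
  · refine Filter.Eventually.of_forall fun z => ?_
    show ‖θ (x * (conjUnip386 x z.2 * z.1)) * g z.1‖ ≤ Cθ * ‖g z.1‖ * 1
    rw [norm_mul, mul_one]
    exact mul_le_mul_of_nonneg_right (hCθ _) (norm_nonneg _)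

/-- Integrability on the product, second form. -/
theorem integrable_prod_two386 (μ : Measure (G K)) [μ.IsHaarMeasure] (ν : Measure (Adl K))
    [SFinite ν] (D : Set (Adl K)) (hDm : MeasurableSet D) (hDtop : ν D ≠ ⊤) (hDc : IsCompact (closure D))
    (x : G K) (θ g : G K → ℂ)
    (hθ : Continuous θ) (Cθ : ℝ) (hCθ : ∀ y, ‖θ y‖ ≤ Cθ) (hg : Continuous g)
    (hgc : HasCompactSupport g) :
    Integrable (Function.uncurry fun (h : G K) (v : Adl K) =>
      θ (x * h) * g (conjUnip386 x (-v) * h)) (μ.prod (ν.restrict D)) := by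
  haveI : IsFiniteMeasure (ν.restrict D) := ⟨by
    rw [Measure.restrict_apply MeasurableSet.univ, Set.univ_inter]
    exact hDtop.lt_top⟩
  obtain ⟨Cg, hCg⟩ := hgc.exists_bound_of_continuous hg
  set T : Set (G K) := (conjUnip386 x '' closure D) * tsupport g with hT
  have hTc : IsCompact T := (hDc.image (continuous_conjUnip386 x)).mul hgc
  have hTi : Integrable (T.indicator fun _ : G K => (Cθ * Cg : ℝ)) μ :=
    (integrable_indicator_iff hTc.isClosed.measurableSet).mpr
      (integrableOn_const hTc.measure_ne_top)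
  have hdom : Integrable (fun z : G K × Adl K =>
      (T.indicator (fun _ : G K => (Cθ * Cg : ℝ)) z.1) * (1 : ℝ)) (μ.prod (ν.restrict D)) :=
    Integrable.mul_prod (f := T.indicator fun _ : G K => (Cθ * Cg : ℝ))
      (g := fun _ : Adl K => (1 : ℝ)) hTi (integrable_const 1)
  refine hdom.mono' ?_ ?_
  · refine Continuous.aestronglyMeasurable ?_
    have h1 : Continuous fun z : G K × Adl K => conjUnip386 x (-z.2) * z.1 :=
      ((continuous_conjUnip386 x).comp continuous_snd.neg).mul continuous_fst
    exact (hθ.comp (continuous_const.mul continuous_fst)).mul (hg.comp h1)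
  · have hae : ∀ᵐ z ∂(μ.prod (ν.restrict D)), z ∈ (Set.univ : Set (G K)) ×ˢ D := by
      have := Measure.prod_restrict (μ := μ) (ν := ν) (Set.univ : Set (G K)) D
      rw [Measure.restrict_univ] at this
      rw [this]
      exact ae_restrict_mem (MeasurableSet.univ.prod hDm)
    filter_upwards [hae] with z hz
    have hzD : z.2 ∈ D := hz.2
    show ‖θ (x * z.1) * g (conjUnip386 x (-z.2) * z.1)‖
      ≤ T.indicator (fun _ : G K => (Cθ * Cg : ℝ)) z.1 * 1
    rw [mul_one, norm_mul]
    have hCθ0 : 0 ≤ Cθ := le_trans (norm_nonneg _) (hCθ 1)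
    by_cases hz0 : g (conjUnip386 x (-z.2) * z.1) = 0
    · rw [hz0, norm_zero, mul_zero]
      refine Set.indicator_nonneg (fun _ _ => ?_) _
      exact mul_nonneg hCθ0 (le_trans (norm_nonneg _) (hCg 1))
    · have hmem : z.1 ∈ T := by
        refine ⟨conjUnip386 x z.2, ⟨z.2, subset_closure hzD, rfl⟩,
          conjUnip386 x (-z.2) * z.1, subset_closure hz0, ?_⟩
        show conjUnip386 x z.2 * (conjUnip386 x (-z.2) * z.1) = z.1
        rw [← mul_assoc, ← conjUnip386_add, add_neg_cancel, conjUnip386_zero, one_mul]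
      rw [Set.indicator_of_mem hmem]
      exact mul_le_mul (hCθ _) (hCg _) (norm_nonneg _) hCθ0

/-- **Fubini**: the constant term projection on the automorphic side is the averaging operator on
the side of the test function. -/
theorem fubini386 (μ : Measure (G K)) [μ.IsHaarMeasure] (ν : Measure (Adl K)) [SFinite ν]
    (D : Set (Adl K)) (hDm : MeasurableSet D) (hDtop : ν D ≠ ⊤) (hDc : IsCompact (closure D))
    (x : G K) (θ g : G K → ℂ)
    (hθ : Continuous θ) (Cθ : ℝ) (hCθ : ∀ y, ‖θ y‖ ≤ Cθ) (hg : Continuous g)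
    (hgc : HasCompactSupport g) :
    ∫ h, (∫ v in D, θ (unip386 v * (x * h)) ∂ν) * g h ∂μ
      = ∫ h, θ (x * h) * (∫ v in D, g (conjUnip386 x (-v) * h) ∂ν) ∂μ := by
  haveI : IsFiniteMeasure (ν.restrict D) := ⟨by
    rw [Measure.restrict_apply MeasurableSet.univ, Set.univ_inter]
    exact hDtop.lt_top⟩
  have e1 : ∀ h, (∫ v in D, θ (unip386 v * (x * h)) ∂ν) * g h
      = ∫ v in D, θ (x * (conjUnip386 x v * h)) * g h ∂ν := by
    intro h
    rw [← integral_mul_const]
    refine integral_congr_ae (Filter.Eventually.of_forall fun v => ?_)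
    show θ (unip386 v * (x * h)) * g h = θ (x * (conjUnip386 x v * h)) * g h
    rw [← mul_assoc (unip386 v), unip386_mul, mul_assoc]
  have e2 : ∀ h, θ (x * h) * (∫ v in D, g (conjUnip386 x (-v) * h) ∂ν)
      = ∫ v in D, θ (x * h) * g (conjUnip386 x (-v) * h) ∂ν :=
    fun h => (integral_const_mul _ _).symm
  simp_rw [e1, e2]
  rw [integral_integral_swap
      (integrable_prod_one386 μ ν D hDtop x θ g hθ Cθ hCθ hg hgc),
    integral_integral_swap
      (integrable_prod_two386 μ ν D hDm hDtop hDc x θ g hθ Cθ hCθ hg hgc)]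
  refine integral_congr_ae (Filter.Eventually.of_forall fun v => ?_)
  show ∫ h, θ (x * (conjUnip386 x v * h)) * g h ∂μ
    = ∫ h, θ (x * h) * g (conjUnip386 x (-v) * h) ∂μ
  have h3 := integral_mul_left_eq_self (μ := μ)
    (fun h => θ (x * h) * g (conjUnip386 x (-v) * h)) (conjUnip386 x v)
  rw [← h3]
  refine integral_congr_ae (Filter.Eventually.of_forall fun h => ?_)
  show θ (x * (conjUnip386 x v * h)) * g h
    = θ (x * (conjUnip386 x v * h)) * g (conjUnip386 x (-v) * (conjUnip386 x v * h))
  rw [← mul_assoc (conjUnip386 x (-v)), ← conjUnip386_add, neg_add_cancel, conjUnip386_zero,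
    one_mul]

end

end Fermat.Agent.LT.T2.H386

end
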