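import Mathlib
import Fermat.Agent.LT.H556.A0
import Fermat.Agent.LT.T1.Spec
import Fermat.Agent.LT.T2.Spec
import Fermat.Agent.LT.T2.H386.GPSSpec
import Fermat.Agent.LT.T2.H386.Soft1A
import Fermat.Agent.LT.T2.H386.Soft1B
import Fermat.Agent.LT.T2.H386.Soft1C

/-!
# Row LT, T2.03b (helper386): the averaging operator and the iterated kernels

OFF-MAIN.  `avgOp386 ν D x g (h) = ν(D)⁻¹ ∫_D g(c_x(-v) h) dν(v)`,
`ker386 ν D x j f = (1 - 𝔄_x)^j f`: continuity, bounds, supports; the kernels are means of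
finite differences.
-/

set_option autoImplicit false
set_option linter.unusedSectionVars false
set_option linter.style.haveILetI false

open IsDedekindDomain NumberField MeasureTheory
open scoped Pointwise
open Fermat.Agent.LT.H556.A0

noncomputable section

namespace Fermat.Agent.LT.T2.H386

open Fermat.Agent.LT.T2

attribute [local instance] Fermat.Agent.LT.T2.borelG

variable {K : Type} [Field K] [NumberField K]

attribute [local instance] borelAdl386 borelSpaceAdl386 borelSpaceG386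

/-- The averaging operator `𝔄_x g (h) = ν(D)⁻¹ ∫_D g(c_x(-v) h) dν(v)`. -/
def avgOp386 (ν : Measure (Adl K)) (D : Set (Adl K)) (x : G K) (g : G K → ℂ) : G K → ℂ :=
  fun h => (((ν D).toReal : ℝ) : ℂ)⁻¹ * ∫ v in D, g (conjUnip386 x (-v) * h) ∂ν

/-- The iterated kernels `(1 - 𝔄_x)^j f`. -/
def ker386 (ν : Measure (Adl K)) (D : Set (Adl K)) (x : G K) : ℕ → (G K → ℂ) → (G K → ℂ)
  | 0, f => f
  | j + 1, f => fun h => ker386 ν D x j f h - avgOp386 ν D x (ker386 ν D x j f) h

/-- The supports: `T₀ = T`, `T_{j+1} = T_j ∪ W T_j`. -/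
def suppSeq386 (W T : Set (G K)) : ℕ → Set (G K)
  | 0 => T
  | j + 1 => suppSeq386 W T j ∪ W * suppSeq386 W T j

theorem isCompact_suppSeq386 {W T : Set (G K)} (hW : IsCompact W) (hT : IsCompact T) (j : ℕ) :
    IsCompact (suppSeq386 W T j) := by
  induction j with
  | zero => exact hT
  | succ j ih => exact ih.union (hW.mul ih)

theorem continuous_diff386 (x : G K) (v : Adl K) {g : G K → ℂ} (hg : Continuous g) :
    Continuous (diff386 x v g) :=
  hg.sub (hg.comp (continuous_const.mul continuous_id))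

theorem diff386_comm (x : G K) (v w : Adl K) (g : G K → ℂ) :
    diff386 x v (diff386 x w g) = diff386 x w (diff386 x v g) := by
  funext h
  simp only [diff386]
  rw [← mul_assoc (conjUnip386 x (-w)), ← mul_assoc (conjUnip386 x (-v)),
    conjUnip386_comm x (-w) (-v)]
  ring

section

variable [LocallyCompactSpace (G K)] [SecondCountableTopology (G K)] [T2Space (G K)]
  [LocallyCompactSpace (Adl K)] [SecondCountableTopology (Adl K)] [T2Space (Adl K)]

theorem continuous_avgOp386 (ν : Measure (Adl K)) (D : Set (Adl K)) (hDtop : ν D ≠ ⊤)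
    (hDc : IsCompact (closure D)) (x : G K) {g : G K → ℂ} (hg : Continuous g) :
    Continuous (avgOp386 ν D x g) := by
  refine continuous_const.mul ?_
  refine continuous_setIntegral386 ν D hDtop hDc (fun h v => g (conjUnip386 x (-v) * h)) ?_
  exact hg.comp (((continuous_conjUnip386 x).comp continuous_snd.neg).mul continuous_fst)

theorem norm_avgOp386_le (ν : Measure (Adl K)) (D : Set (Adl K)) (hD0 : ν D ≠ 0)
    (hDtop : ν D ≠ ⊤) (x : G K) {g : G K → ℂ} (C : ℝ) (hC : ∀ y, ‖g y‖ ≤ C) (h : G K) :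
    ‖avgOp386 ν D x g h‖ ≤ C := by
  have hpos : 0 < (ν D).toReal := ENNReal.toReal_pos hD0 hDtop
  have h2 : ‖∫ v in D, g (conjUnip386 x (-v) * h) ∂ν‖ ≤ C * (ν D).toReal :=
    norm_setIntegral_le_of_norm_le_const hDtop.lt_top (fun v _ => hC _)
  unfold avgOp386
  rw [norm_mul, norm_inv, Complex.norm_real, Real.norm_of_nonneg hpos.le]
  calc (ν D).toReal⁻¹ * ‖∫ v in D, g (conjUnip386 x (-v) * h) ∂ν‖
      ≤ (ν D).toReal⁻¹ * (C * (ν D).toReal) :=
        mul_le_mul_of_nonneg_left h2 (inv_nonneg.mpr hpos.le)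
    _ = C := by field_simp

theorem avgOp386_support (ν : Measure (Adl K)) (D : Set (Adl K)) (x : G K) {g : G K → ℂ}
    {W T : Set (G K)} (hW : ∀ v ∈ D, conjUnip386 x v ∈ W) (hT : ∀ y, g y ≠ 0 → y ∈ T)
    (h : G K) (hh : avgOp386 ν D x g h ≠ 0) : h ∈ W * T := by
  by_contra hcon
  apply hh
  unfold avgOp386
  have : ∀ v ∈ D, g (conjUnip386 x (-v) * h) = 0 := by
    intro v hv
    by_contra hne
    apply hcon
    refine ⟨conjUnip386 x v, hW v hv, conjUnip386 x (-v) * h, hT _ hne, ?_⟩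
    show conjUnip386 x v * (conjUnip386 x (-v) * h) = h
    rw [← mul_assoc, ← conjUnip386_add, add_neg_cancel, conjUnip386_zero, one_mul]
  rw [setIntegral_eq_zero_of_forall_eq_zero this, mul_zero]

/-- Continuity, bound and support of the iterated kernels. -/
theorem ker386_props (ν : Measure (Adl K)) (D : Set (Adl K)) (hD0 : ν D ≠ 0) (hDtop : ν D ≠ ⊤)
    (hDc : IsCompact (closure D)) (x : G K) {f : G K → ℂ} (hf : Continuous f)
    (C : ℝ) (hC : ∀ y, ‖f y‖ ≤ C) {W T : Set (G K)} (hW : ∀ v ∈ D, conjUnip386 x v ∈ W)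
    (hT : ∀ y, f y ≠ 0 → y ∈ T) (j : ℕ) :
    Continuous (ker386 ν D x j f) ∧ (∀ y, ‖ker386 ν D x j f y‖ ≤ 2 ^ j * C) ∧
      ∀ y, ker386 ν D x j f y ≠ 0 → y ∈ suppSeq386 W T j := by
  induction j with
  | zero =>
    refine ⟨hf, fun y => ?_, hT⟩
    simpa [ker386] using hC y
  | succ j ih =>
    obtain ⟨hc, hb, hs⟩ := ih
    refine ⟨hc.sub (continuous_avgOp386 ν D hDtop hDc x hc), fun y => ?_, fun y hy => ?_⟩
    · show ‖ker386 ν D x j f y - avgOp386 ν D x (ker386 ν D x j f) y‖ ≤ 2 ^ (j + 1) * C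
      calc ‖ker386 ν D x j f y - avgOp386 ν D x (ker386 ν D x j f) y‖
          ≤ ‖ker386 ν D x j f y‖ + ‖avgOp386 ν D x (ker386 ν D x j f) y‖ := norm_sub_le _ _
        _ ≤ 2 ^ j * C + 2 ^ j * C :=
          add_le_add (hb y) (norm_avgOp386_le ν D hD0 hDtop x _ hb y)
        _ = 2 ^ (j + 1) * C := by ring
    · show y ∈ suppSeq386 W T j ∪ W * suppSeq386 W T j
      by_cases h1 : ker386 ν D x j f y = 0
      · right
        refine avgOp386_support ν D x hW hs y ?_
        intro h2
        apply hy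
        show ker386 ν D x j f y - avgOp386 ν D x (ker386 ν D x j f) y = 0
        rw [h1, h2, sub_zero]
      · exact Or.inl (hs y h1)

end

end Fermat.Agent.LT.T2.H386

end
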