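import Mathlib
import Fermat.Agent.LT.H556.A0
import Fermat.Agent.LT.T1.Spec
import Fermat.Agent.LT.T2.Spec
import Fermat.Agent.LT.T2.H386.GPSSpec
import Fermat.Agent.LT.T2.H386.Soft1A
import Fermat.Agent.LT.T2.H386.Soft1B
import Fermat.Agent.LT.T2.H386.Soft1C
import Fermat.Agent.LT.T2.H386.Soft1D

/-!
# Row LT, T2.03b (helper386): the iterated kernels are means of finite differences

OFF-MAIN.  `fdiff386 x vs ((1 - 𝔄_x) g) (h) = ν(D)⁻¹ ∫_D fdiff386 x (v :: vs) g (h) dν(v)`, hence a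
bound for all finite differences of order `M` of `f` with steps in `D` is a bound for
`(1 - 𝔄_x)^M f`.
-/

set_option autoImplicit false
set_option linter.unusedSectionVars false
set_option linter.style.haveILetI false

open IsDedekindDomain NumberField MeasureTheory
open scoped Pointwise
open Fermat.Agent.LT.H556.A0

noncomputable section

namespace Fermat.Agent.LT.T2.H386

open Fermat.Agent.LT.T2

attribute [local instance] Fermat.Agent.LT.T2.borelG

variable {K : Type} [Field K] [NumberField K]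

attribute [local instance] borelAdl386 borelSpaceAdl386 borelSpaceG386

theorem norm_diff386_le (x : G K) (v : Adl K) {g : G K → ℂ} (C : ℝ) (hC : ∀ y, ‖g y‖ ≤ C)
    (y : G K) : ‖diff386 x v g y‖ ≤ 2 * C := by
  calc ‖diff386 x v g y‖ ≤ ‖g y‖ + ‖g (conjUnip386 x (-v) * y)‖ := norm_sub_le _ _
    _ ≤ C + C := add_le_add (hC _) (hC _)
    _ = 2 * C := by ring

section

variable [LocallyCompactSpace (G K)] [SecondCountableTopology (G K)] [T2Space (G K)]
  [LocallyCompactSpace (Adl K)] [SecondCountableTopology (Adl K)] [T2Space (Adl K)]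

/-- Integrability of `v ↦ Φ v` on `D` for a bounded continuous `Φ`. -/
theorem integrableOn_of_bound386 (ν : Measure (Adl K)) (D : Set (Adl K)) (hDtop : ν D ≠ ⊤)
    {Φ : Adl K → ℂ} (hΦ : Continuous Φ) (C : ℝ) (hC : ∀ v, ‖Φ v‖ ≤ C) :
    IntegrableOn Φ D ν := by
  haveI : IsFiniteMeasure (ν.restrict D) := ⟨by
    rw [Measure.restrict_apply MeasurableSet.univ, Set.univ_inter]
    exact hDtop.lt_top⟩
  exact (integrable_const C).mono' hΦ.aestronglyMeasurable (Filter.Eventually.of_forall hC)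

theorem continuous_conjArg386 (x : G K) (h : G K) {g : G K → ℂ} (hg : Continuous g) :
    Continuous fun v : Adl K => g (conjUnip386 x (-v) * h) :=
  hg.comp (((continuous_conjUnip386 x).comp continuous_neg).mul continuous_const)

/-- The averaging operator commutes with the differences. -/
theorem avgOp386_diff (ν : Measure (Adl K)) (D : Set (Adl K)) (hDtop : ν D ≠ ⊤) (x : G K)
    (w : Adl K) {g : G K → ℂ} (hg : Continuous g) (C : ℝ) (hC : ∀ y, ‖g y‖ ≤ C) :
    avgOp386 ν D x (diff386 x w g) = diff386 x w (avgOp386 ν D x g) := by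
  funext h
  show (((ν D).toReal : ℝ) : ℂ)⁻¹ * ∫ v in D, diff386 x w g (conjUnip386 x (-v) * h) ∂ν
    = (((ν D).toReal : ℝ) : ℂ)⁻¹ * ∫ v in D, g (conjUnip386 x (-v) * h) ∂ν
      - (((ν D).toReal : ℝ) : ℂ)⁻¹ *
        ∫ v in D, g (conjUnip386 x (-v) * (conjUnip386 x (-w) * h)) ∂ν
  have e : ∀ v : Adl K, diff386 x w g (conjUnip386 x (-v) * h)
      = g (conjUnip386 x (-v) * h) - g (conjUnip386 x (-v) * (conjUnip386 x (-w) * h)) := by
    intro v
    show g (conjUnip386 x (-v) * h) - g (conjUnip386 x (-w) * (conjUnip386 x (-v) * h)) = _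
    rw [← mul_assoc (conjUnip386 x (-w)), conjUnip386_comm x (-w) (-v), mul_assoc]
  simp_rw [e]
  rw [integral_sub
    (integrableOn_of_bound386 ν D hDtop (continuous_conjArg386 x h hg) C (fun _ => hC _))
    (integrableOn_of_bound386 ν D hDtop (continuous_conjArg386 x _ hg) C (fun _ => hC _)),
    mul_sub]

/-- `Δ_w (1 - 𝔄) g = (1 - 𝔄) Δ_w g`. -/
theorem diff386_one_sub_avg (ν : Measure (Adl K)) (D : Set (Adl K)) (hDtop : ν D ≠ ⊤) (x : G K)
    (w : Adl K) {g : G K → ℂ} (hg : Continuous g) (C : ℝ) (hC : ∀ y, ‖g y‖ ≤ C) :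
    diff386 x w (fun h => g h - avgOp386 ν D x g h)
      = fun h => diff386 x w g h - avgOp386 ν D x (diff386 x w g) h := by
  rw [avgOp386_diff ν D hDtop x w hg C hC]
  funext h
  simp only [diff386]
  ring

/-- The finite differences of `(1 - 𝔄) g` are means of finite differences of `g`. -/
theorem fdiff386_one_sub_avg (ν : Measure (Adl K)) (D : Set (Adl K)) (hD0 : ν D ≠ 0)
    (hDtop : ν D ≠ ⊤) (x : G K) :
    ∀ (vs : List (Adl K)) (g : G K → ℂ), Continuous g → ∀ C : ℝ, (∀ y, ‖g y‖ ≤ C) →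
      ∀ h : G K, fdiff386 x vs (fun h => g h - avgOp386 ν D x g h) h
        = (((ν D).toReal : ℝ) : ℂ)⁻¹ * ∫ v in D, fdiff386 x (v :: vs) g h ∂ν := by
  have hne : (((ν D).toReal : ℝ) : ℂ) ≠ 0 := by
    have : (ν D).toReal ≠ 0 := ENNReal.toReal_ne_zero.mpr ⟨hD0, hDtop⟩
    exact_mod_cast this
  intro vs
  induction vs with
  | nil =>
    intro g hg C hC h
    show g h - (((ν D).toReal : ℝ) : ℂ)⁻¹ * ∫ v in D, g (conjUnip386 x (-v) * h) ∂ν
      = (((ν D).toReal : ℝ) : ℂ)⁻¹ * ∫ v in D, (g h - g (conjUnip386 x (-v) * h)) ∂ν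
    haveI : IsFiniteMeasure (ν.restrict D) := ⟨by
      rw [Measure.restrict_apply MeasurableSet.univ, Set.univ_inter]
      exact hDtop.lt_top⟩
    have h1 : ∫ v in D, (g h - g (conjUnip386 x (-v) * h)) ∂ν
        = (((ν D).toReal : ℝ) : ℂ) * g h - ∫ v in D, g (conjUnip386 x (-v) * h) ∂ν := by
      rw [integral_sub (integrable_const _)
        (integrableOn_of_bound386 ν D hDtop (continuous_conjArg386 x h hg) C (fun _ => hC _)),
        setIntegral_const]
      congr 1
    rw [h1, mul_sub, ← mul_assoc, inv_mul_cancel₀ hne, one_mul]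
  | cons w vs ih =>
    intro g hg C hC h
    show fdiff386 x vs (diff386 x w (fun h => g h - avgOp386 ν D x g h)) h = _
    rw [diff386_one_sub_avg ν D hDtop x w hg C hC,
      ih (diff386 x w g) (continuous_diff386 x w hg) (2 * C) (norm_diff386_le x w C hC) h]
    have hint : ∫ v in D, fdiff386 x (v :: vs) (diff386 x w g) h ∂ν
        = ∫ v in D, fdiff386 x (v :: w :: vs) g h ∂ν := by
      refine integral_congr_ae (Filter.Eventually.of_forall fun v => ?_)
      show fdiff386 x vs (diff386 x v (diff386 x w g)) h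
        = fdiff386 x vs (diff386 x w (diff386 x v g)) h
      rw [diff386_comm]
    rw [hint]

/-- One step: a bound for the differences of order `k + 1` of `g` is a bound for the differences
of order `k` of `(1 - 𝔄) g`. -/
theorem fdiff386_step_bound (ν : Measure (Adl K)) (D D' : Set (Adl K)) (hDD' : D ⊆ D')
    (hD0 : ν D ≠ 0) (hDtop : ν D ≠ ⊤) (x : G K) {g : G K → ℂ} (hg : Continuous g) (C : ℝ)
    (hC : ∀ y, ‖g y‖ ≤ C) (B : ℝ) (k : ℕ)
    (hB : ∀ vs : List (Adl K), vs.length = k + 1 → (∀ v ∈ vs, v ∈ D') →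
      ∀ h, ‖fdiff386 x vs g h‖ ≤ B)
    (vs : List (Adl K)) (hvs : vs.length = k) (hvsD : ∀ v ∈ vs, v ∈ D') (h : G K) :
    ‖fdiff386 x vs (fun h => g h - avgOp386 ν D x g h) h‖ ≤ B := by
  have hpos : 0 < (ν D).toReal := ENNReal.toReal_pos hD0 hDtop
  rw [fdiff386_one_sub_avg ν D hD0 hDtop x vs g hg C hC h]
  have h2 : ‖∫ v in D, fdiff386 x (v :: vs) g h ∂ν‖ ≤ B * (ν D).toReal := by
    refine norm_setIntegral_le_of_norm_le_const hDtop.lt_top (fun v hv => ?_)
    refine hB (v :: vs) (by simp [hvs]) ?_ h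
    intro u hu
    rcases List.mem_cons.mp hu with rfl | hu
    · exact hDD' hv
    · exact hvsD u hu
  rw [norm_mul, norm_inv, Complex.norm_real, Real.norm_of_nonneg hpos.le]
  calc (ν D).toReal⁻¹ * ‖∫ v in D, fdiff386 x (v :: vs) g h ∂ν‖
      ≤ (ν D).toReal⁻¹ * (B * (ν D).toReal) :=
        mul_le_mul_of_nonneg_left h2 (inv_nonneg.mpr hpos.le)
    _ = B := by field_simp

/-- A bound for the differences of order `M + k` of `f` is a bound for the differences of order
`k` of the kernel `(1 - 𝔄)^M f`. -/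
theorem fdiff386_ker_bound (ν : Measure (Adl K)) (D D' : Set (Adl K)) (hDD' : D ⊆ D')
    (hD0 : ν D ≠ 0) (hDtop : ν D ≠ ⊤) (hDc : IsCompact (closure D)) (x : G K)
    {f : G K → ℂ} (hf : Continuous f) (C : ℝ) (hC : ∀ y, ‖f y‖ ≤ C) (B : ℝ) :
    ∀ (M k : ℕ), (∀ vs : List (Adl K), vs.length = M + k → (∀ v ∈ vs, v ∈ D') →
        ∀ h, ‖fdiff386 x vs f h‖ ≤ B) →
      ∀ vs : List (Adl K), vs.length = k → (∀ v ∈ vs, v ∈ D') →
        ∀ h, ‖fdiff386 x vs (ker386 ν D x M f) h‖ ≤ B := by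
  intro M
  induction M with
  | zero =>
    intro k hB vs hvs hvsD h
    exact hB vs (by simpa using hvs) hvsD h
  | succ M ih =>
    intro k hB vs hvs hvsD h
    have hprops := ker386_props ν D hD0 hDtop hDc x hf C hC
      (W := Set.univ) (T := Set.univ) (fun _ _ => Set.mem_univ _) (fun _ _ => Set.mem_univ _) M
    have hstep := ih (k + 1) (fun vs hvs' hvsD' h => hB vs (by omega) hvsD' h)
    exact fdiff386_step_bound ν D D' hDD' hD0 hDtop x hprops.1 _ hprops.2.1 B k hstep vs hvs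
      hvsD h

end

end Fermat.Agent.LT.T2.H386

end
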