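import Mathlib
import Fermat.Agent.LT.H556.A0
import Fermat.Agent.LT.T1.Spec
import Fermat.Agent.LT.T2.Spec
import Fermat.Agent.LT.T2.H386.GPSSpec
import Fermat.Agent.LT.T2.H386.Soft1A
import Fermat.Agent.LT.T2.H386.Soft1B
import Fermat.Agent.LT.T2.H386.Soft1C
import Fermat.Agent.LT.T2.H386.Soft1D
import Fermat.Agent.LT.T2.H386.Soft1E

/-!
# Row LT, T2.03b (helper386): `R(f)ψ - R(f)Ψ = R((1 - 𝔄_x)^{j+1} f) ψ` at `x`

OFF-MAIN.
-/

set_option autoImplicit false
set_option linter.unusedSectionVars false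
set_option linter.style.haveILetI false

open IsDedekindDomain NumberField MeasureTheory
open scoped Pointwise
open Fermat.Agent.LT.H556.A0

noncomputable section

namespace Fermat.Agent.LT.T2.H386

open Fermat.Agent.LT.T2

attribute [local instance] Fermat.Agent.LT.T2.borelG

variable {K : Type} [Field K] [NumberField K]

attribute [local instance] borelAdl386 borelSpaceAdl386 borelSpaceG386

section

variable [LocallyCompactSpace (G K)] [SecondCountableTopology (G K)] [T2Space (G K)]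
  [LocallyCompactSpace (Adl K)] [SecondCountableTopology (Adl K)] [T2Space (Adl K)]

/-- The data of the soft part: Haar measures, a fundamental domain, an automorphic function and
its constant term. -/
structure SoftData386 (K : Type) [Field K] [NumberField K] (𝔫 : Ideal (𝓞 K)) where
  μ : Measure (G K)
  hμ : μ.IsHaarMeasure
  ν : Measure (Adl K)
  hν : ν.IsAddHaarMeasure
  D : Set (Adl K)
  hDm : MeasurableSet D
  hD : IsAddFundamentalDomain (T1.princ K) D ν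
  hDc : IsCompact (closure D)
  hD0 : ν D ≠ 0
  hDtop : ν D ≠ ⊤
  ψ : G K → ℂ
  Ψ : G K → ℂ
  hψ : IsAutFn 𝔫 ψ
  hΨ : IsConstTerm ψ Ψ

namespace SoftData386

variable {𝔫 : Ideal (𝓞 K)} (S : SoftData386 K 𝔫)

theorem c_ne_zero : (((S.ν S.D).toReal : ℝ) : ℂ) ≠ 0 := by
  have : (S.ν S.D).toReal ≠ 0 := ENNReal.toReal_ne_zero.mpr ⟨S.hD0, S.hDtop⟩
  exact_mod_cast this

/-- `∫ Ψ(x h) g(h) dμ(h) = ∫ ψ(x h) (𝔄_x g)(h) dμ(h)`. -/
theorem int_Psi_eq_psi_avg (x : G K) {g : G K → ℂ} (hg : Continuous g)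
    (hgc : HasCompactSupport g) :
    ∫ h, S.Ψ (x * h) * g h ∂S.μ = ∫ h, S.ψ (x * h) * avgOp386 S.ν S.D x g h ∂S.μ := by
  haveI := S.hμ
  haveI := S.hν
  obtain ⟨C, hC⟩ := S.hψ.bdd
  have hfub := fubini386 S.μ S.ν S.D S.hDm S.hDtop S.hDc x S.ψ g S.hψ.cont C hC hg hgc
  have e1 : ∀ h, (∫ v in S.D, S.ψ (unip386 v * (x * h)) ∂S.ν) * g h
      = (((S.ν S.D).toReal : ℝ) : ℂ) * (S.Ψ (x * h) * g h) := by
    intro h
    rw [constTerm_eq386 S.hΨ S.ν S.hν S.D S.hD (x * h), mul_assoc]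
  have e2 : ∀ h, S.ψ (x * h) * (∫ v in S.D, g (conjUnip386 x (-v) * h) ∂S.ν)
      = (((S.ν S.D).toReal : ℝ) : ℂ) * (S.ψ (x * h) * avgOp386 S.ν S.D x g h) := by
    intro h
    have hc := S.c_ne_zero
    unfold avgOp386
    field_simp
  simp_rw [e1, e2] at hfub
  rw [integral_const_mul, integral_const_mul] at hfub
  exact mul_left_cancel₀ S.c_ne_zero hfub

/-- The constant term is continuous and bounded. -/
theorem Psi_cont : Continuous S.Ψ :=
  constTerm_continuous386 S.hψ.cont S.hΨ S.ν S.hν S.D S.hD S.hD0 S.hDtop S.hDc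

/-- `∫ Ψ(x h) g(h) dμ(h) = ∫ Ψ(x h) (𝔄_x g)(h) dμ(h)`. -/
theorem int_Psi_eq_Psi_avg (x : G K) {g : G K → ℂ} (hg : Continuous g)
    (hgc : HasCompactSupport g) :
    ∫ h, S.Ψ (x * h) * g h ∂S.μ = ∫ h, S.Ψ (x * h) * avgOp386 S.ν S.D x g h ∂S.μ := by
  haveI := S.hμ
  haveI := S.hν
  obtain ⟨C, hC⟩ := S.hψ.bdd
  have hCΨ : ∀ y, ‖S.Ψ y‖ ≤ C :=
    constTerm_bound386 S.hΨ S.ν S.hν S.D S.hD S.hD0 S.hDtop C hC
  have hfub := fubini386 S.μ S.ν S.D S.hDm S.hDtop S.hDc x S.Ψ g S.Psi_cont C hCΨ hg hgc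
  have e1 : ∀ h, (∫ v in S.D, S.Ψ (unip386 v * (x * h)) ∂S.ν) * g h
      = (((S.ν S.D).toReal : ℝ) : ℂ) * (S.Ψ (x * h) * g h) := by
    intro h
    have : ∀ v : Adl K, S.Ψ (unip386 v * (x * h)) = S.Ψ (x * h) := fun v =>
      constTerm_unip386 S.hΨ S.ν S.hν S.D S.hD S.hD0 S.hDtop v (x * h)
    simp_rw [this]
    rw [setIntegral_const, Complex.real_smul, mul_assoc]
    rfl
  have e2 : ∀ h, S.Ψ (x * h) * (∫ v in S.D, g (conjUnip386 x (-v) * h) ∂S.ν)
      = (((S.ν S.D).toReal : ℝ) : ℂ) * (S.Ψ (x * h) * avgOp386 S.ν S.D x g h) := by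
    intro h
    have hc := S.c_ne_zero
    unfold avgOp386
    field_simp
  simp_rw [e1, e2] at hfub
  rw [integral_const_mul, integral_const_mul] at hfub
  exact mul_left_cancel₀ S.c_ne_zero hfub

/-- Integrability of `h ↦ θ(x h) k(h)`. -/
theorem integrable_mul386 (x : G K) {θ k : G K → ℂ} (hθ : Continuous θ) (hk : Continuous k)
    (hkc : HasCompactSupport k) : Integrable (fun h => θ (x * h) * k h) S.μ := by
  haveI := S.hμ
  exact ((hθ.comp (continuous_const.mul continuous_id)).mul hk).integrable_of_hasCompactSupport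
    hkc.mul_left

/-- **The identity**: `R(f)ψ(x) - R(f)Ψ(x) = ∫ ψ(x h) ((1 - 𝔄_x)^{j+1} f)(h) dμ(h)`, and
`∫ Ψ(x h) ((1 - 𝔄_x)^{j+1} f)(h) dμ(h) = 0`. -/
theorem int_ker (x : G K) {f : G K → ℂ} (hf : Continuous f) (hfc : HasCompactSupport f)
    (j : ℕ) :
    ∫ h, S.ψ (x * h) * ker386 S.ν S.D x (j + 1) f h ∂S.μ
        = ∫ h, S.ψ (x * h) * f h ∂S.μ - ∫ h, S.Ψ (x * h) * f h ∂S.μ ∧
      ∫ h, S.Ψ (x * h) * ker386 S.ν S.D x (j + 1) f h ∂S.μ = 0 := by
  haveI := S.hμ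
  obtain ⟨C, hC⟩ := hfc.exists_bound_of_continuous hf
  -- properties of all kernels
  have hW : ∀ v ∈ S.D, conjUnip386 x v ∈ conjUnip386 x '' closure S.D :=
    fun v hv => ⟨v, subset_closure hv, rfl⟩
  have hWc : IsCompact (conjUnip386 x '' closure S.D) :=
    S.hDc.image (continuous_conjUnip386 x)
  have hT : ∀ y, f y ≠ 0 → y ∈ tsupport f := fun y hy => subset_closure hy
  have hprops := fun i => ker386_props S.ν S.D S.hD0 S.hDtop S.hDc x hf C hC hW hT i
  have hkc : ∀ i, HasCompactSupport (ker386 S.ν S.D x i f) := fun i =>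
    HasCompactSupport.intro (isCompact_suppSeq386 hWc hfc i) (fun y hy => by
      by_contra hne
      exact hy ((hprops i).2.2 y hne))
  have hac : ∀ i, HasCompactSupport (avgOp386 S.ν S.D x (ker386 S.ν S.D x i f)) := fun i =>
    HasCompactSupport.intro (hWc.mul (isCompact_suppSeq386 hWc hfc i)) (fun y hy => by
      by_contra hne
      exact hy (avgOp386_support S.ν S.D x hW (hprops i).2.2 y hne))
  have hacont : ∀ i, Continuous (avgOp386 S.ν S.D x (ker386 S.ν S.D x i f)) := fun i =>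
    continuous_avgOp386 S.ν S.D S.hDtop S.hDc x (hprops i).1
  -- one step, for `θ = ψ` and `θ = Ψ`
  have stepψ : ∀ i, ∫ h, S.ψ (x * h) * ker386 S.ν S.D x (i + 1) f h ∂S.μ
      = ∫ h, S.ψ (x * h) * ker386 S.ν S.D x i f h ∂S.μ
        - ∫ h, S.Ψ (x * h) * ker386 S.ν S.D x i f h ∂S.μ := by
    intro i
    rw [S.int_Psi_eq_psi_avg x (hprops i).1 (hkc i),
      ← integral_sub (S.integrable_mul386 x S.hψ.cont (hprops i).1 (hkc i))
        (S.integrable_mul386 x S.hψ.cont (hacont i) (hac i))]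
    refine integral_congr_ae (Filter.Eventually.of_forall fun h => ?_)
    show S.ψ (x * h) * (ker386 S.ν S.D x i f h - avgOp386 S.ν S.D x (ker386 S.ν S.D x i f) h)
      = _
    rw [mul_sub]
  have stepΨ : ∀ i, ∫ h, S.Ψ (x * h) * ker386 S.ν S.D x (i + 1) f h ∂S.μ = 0 := by
    intro i
    have h1 : ∫ h, S.Ψ (x * h) * ker386 S.ν S.D x (i + 1) f h ∂S.μ
        = ∫ h, S.Ψ (x * h) * ker386 S.ν S.D x i f h ∂S.μ
          - ∫ h, S.Ψ (x * h) * avgOp386 S.ν S.D x (ker386 S.ν S.D x i f) h ∂S.μ := by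
      rw [← integral_sub (S.integrable_mul386 x S.Psi_cont (hprops i).1 (hkc i))
        (S.integrable_mul386 x S.Psi_cont (hacont i) (hac i))]
      refine integral_congr_ae (Filter.Eventually.of_forall fun h => ?_)
      show S.Ψ (x * h) * (ker386 S.ν S.D x i f h - avgOp386 S.ν S.D x (ker386 S.ν S.D x i f) h)
        = _
      rw [mul_sub]
    rw [h1, ← S.int_Psi_eq_Psi_avg x (hprops i).1 (hkc i), sub_self]
  refine ⟨?_, stepΨ j⟩
  induction j with
  | zero => exact stepψ 0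
  | succ j ih => rw [stepψ (j + 1), stepΨ j, sub_zero, ih]

end SoftData386

end

end Fermat.Agent.LT.T2.H386

end
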