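import Mathlib
import Fermat.Agent.LT.T2.H386.GPSSpec
import Fermat.Agent.LT.T2.H386.Soft1
import Fermat.Agent.LT.T2.H511.FDPartial
import Fermat.Agent.LT.T2.H767.LocalL2

/-!
# Row LT, T2.03 (owner helper386): INTEGRATION of the closed leaves

OFF-MAIN.  ONE import closure with the byte-identical files of the leaf owners:

* `H386.leafSoft1_386` (T2.03b, registry 1118, helper386),
* `H511.leafFD_of_us511` (T2.03a up to `LeafUnifSmooth`; leaves of helper729, helper988,
  helper793 inside; helper511@b9949f8d8),
* `H767.leafLocalL2_767` (T2.03c, registry 1119, helper767@84f973682; count by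
  helper868@d29b270f6).

Result: `T2.Leaf03 K` (= `GPSCore`, registry row 867) from the ONE open leaf
`H511.LeafUnifSmooth K` (registry row 1225).
-/

set_option autoImplicit false

open IsDedekindDomain NumberField

noncomputable section

namespace Fermat.Agent.LT.T2.H386

open Fermat.Agent.LT.T2

/-- **T2.03 up to the one open leaf**: `GPSCore` from the uniform smoothness of test
functions. -/
theorem leaf03_of_us386 (K : Type) [Field K] [NumberField K]
    (hUS : H511.LeafUnifSmooth K) : Leaf03 K :=
  leaf03_of_leaves (H511.leafFD_of_us511 K hUS) (leafSoft1_386 K) (H767.leafLocalL2_767 K)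

/-- Type check against the Spec of the tower architect (T2/Spec v3). -/
example (K : Type) [Field K] [NumberField K] (hUS : H511.LeafUnifSmooth K) :
    T1.T1Out K → ∀ 𝔫 : Ideal (𝓞 K), 𝔫 ≠ ⊥ → GPSCore K 𝔫 := leaf03_of_us386 K hUS

end Fermat.Agent.LT.T2.H386

end
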