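import Mathlib
import Fermat.Agent.LT.T2.H386.Leaf03Partial
import Fermat.Agent.LT.T2.H437.USTop
import Fermat.Agent.LT.T2.H8.FDCalc
import Fermat.Agent.LT.T2.H187.LevelNhds

/-!
# Row LT, T2.03 (owner helper386): `Leaf03` = `GPSCore` CLOSED

OFF-MAIN.  ONE import closure with the byte-identical files of the leaf owners:

* T2.03a (registry 1117, helper511@b9949f8d8): `H511.leafFD_of_us511` with the leaves
  CONTR (helper729), ALG (helper988), CPT (helper793) and
  US (registry 1225, helper437@1a8b3f3f3 `leafUnifSmooth_of_leaves437`; sub-leaves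
  FDCalc helper8@8a9bafacc, LevelNhds helper187@a84f1e2f5),
* T2.03b (registry 1118, helper386): `leafSoft1_386`,
* T2.03c (registry 1119, helper767@84f973682; count by helper868@d29b270f6):
  `H767.leafLocalL2_767`.

Result: `leaf03_386 K : T2.Leaf03 K` for every number field `K`, nothing assumed.
-/

set_option autoImplicit false

open IsDedekindDomain NumberField

noncomputable section

namespace Fermat.Agent.LT.T2.H386

open Fermat.Agent.LT.T2

/-- T2.03a.2 (US) with its three inputs plugged in. -/
theorem leafUnifSmooth_386 (K : Type) [Field K] [NumberField K] : H511.LeafUnifSmooth K :=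
  H437.leafUnifSmooth_of_leaves437 H8.fdCalcC437_h8 (H187.levelNhdsC187 K) (H793.cptC793 K)

/-- T2.03a CLOSED: the finite-difference bound for test functions. -/
theorem leafFD_386 (K : Type) [Field K] [NumberField K] : LeafFD K :=
  H511.leafFD_of_us511 K (leafUnifSmooth_386 K)

/-- **T2.03 CLOSED**: `Leaf03 K` (the estimate `GPSCore`, constant term subtracted) for every
number field `K`. -/
theorem leaf03_386 (K : Type) [Field K] [NumberField K] : Leaf03 K :=
  leaf03_of_us386 K (leafUnifSmooth_386 K)

/-- Type check against the Spec of the tower architect (T2/Spec v3). -/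
example (K : Type) [Field K] [NumberField K] :
    T1.T1Out K → ∀ 𝔫 : Ideal (𝓞 K), 𝔫 ≠ ⊥ → GPSCore K 𝔫 := leaf03_386 K

end Fermat.Agent.LT.T2.H386

end
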