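import Mathlib
import Fermat.Agent.LT.H556.A0
import Fermat.Agent.LT.T1.Spec
import Fermat.Agent.LT.T2.Spec
import Fermat.Agent.LT.T2.H386.GPSSpec
import Fermat.Agent.LT.T2.H386.Soft1A
import Fermat.Agent.LT.T2.H386.Soft1B

/-!
# Row LT, T2.03b in the CORE form (helper386): the constant term

OFF-MAIN.  The statements of `Soft1B.lean` with the hypotheses actually used: continuity,
boundedness and left `GL₂(K)`-invariance of `ψ` (no level, no `K_∞`-type).
-/

set_option autoImplicit false

open IsDedekindDomain NumberField MeasureTheory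
open scoped Pointwise
open Fermat.Agent.LT.H556.A0

noncomputable section

namespace Fermat.Agent.LT.T2.H386

open Fermat.Agent.LT.T2

attribute [local instance] Fermat.Agent.LT.T2.borelG

variable {K : Type} [Field K] [NumberField K]

attribute [local instance] borelAdl386 borelSpaceAdl386 borelSpaceG386

/-- `Ψ` is left invariant under the upper triangular rational matrices (core form: only the
left invariance of `ψ` under `GL₂(K)` is used). -/
theorem constTerm_ratGCore386 {ψ Ψ : G K → ℂ}
    (hinv : ∀ (γ : GL (Fin 2) K) (g : G K),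
      ψ (Matrix.GeneralLinearGroup.map (algebraMap K (Adl K)) γ * g) = ψ g)
    (h : IsConstTerm ψ Ψ) (ν : Measure (Adl K))
    (hν : ν.IsAddHaarMeasure) (D : Set (Adl K))
    (hD : IsAddFundamentalDomain (T1.princ K) D ν) (hD0 : ν D ≠ 0) (hDtop : ν D ≠ ⊤)
    (β : GL (Fin 2) K) (hβ : T1.IsUpperRat K β) (g : G K) :
    Ψ (T1.ratG K β * g) = Ψ g := by
  have := hν
  obtain ⟨κ, hκ0, hκ⟩ := exists_ratio386 β hβ
  set e := scaleHomeo386 κ hκ0 with he
  have hν' : (Measure.map e ν).IsAddHaarMeasure :=
    AddEquiv.isAddHaarMeasure_map ν (scaleAddEquiv386 κ hκ0) e.continuous e.symm.continuous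
  have hD' := isAddFundamentalDomain_scale386 ν D hD κ hκ0
  have h1 := constTerm_eq386 h (Measure.map e ν) hν' (e '' D) hD' g
  have h2 := constTerm_eq386 h ν hν D hD (T1.ratG K β * g)
  have h3 : ∫ x in e '' D, ψ (unip386 x * g) ∂(Measure.map e ν)
      = ∫ v in D, ψ (unip386 v * (T1.ratG K β * g)) ∂ν := by
    have hmap : Measure.map e ν = Measure.map e.toMeasurableEquiv ν := rfl
    rw [hmap, setIntegral_map_equiv]
    have hpre : e.toMeasurableEquiv ⁻¹' (e '' D) = D := Set.preimage_image_eq _ e.injective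
    rw [hpre]
    refine setIntegral_congr_fun₀ hD.nullMeasurableSet ?_
    intro v _
    show ψ (unip386 (algebraMap K (Adl K) κ * v) * g) = ψ (unip386 v * (T1.ratG K β * g))
    rw [← mul_assoc (unip386 v), unip386_mul_ratG β hβ κ hκ v, mul_assoc]
    exact (hinv β _).symm
  have h4 : (Measure.map e ν) (e '' D) = ν D := by
    have hmap : Measure.map e ν = Measure.map e.toMeasurableEquiv ν := rfl
    rw [hmap, MeasurableEquiv.map_apply]
    congr 1
    exact Set.preimage_image_eq _ e.injective
  rw [h3, h2, h4] at h1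
  have hne : (((ν D).toReal : ℝ) : ℂ) ≠ 0 := by
    have : (ν D).toReal ≠ 0 := ENNReal.toReal_ne_zero.mpr ⟨hD0, hDtop⟩
    exact_mod_cast this
  exact mul_left_cancel₀ hne h1

end Fermat.Agent.LT.T2.H386

end
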