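import Mathlib
import Fermat.Agent.LT.H556.A0
import Fermat.Agent.LT.T1.Spec
import Fermat.Agent.LT.T2.Spec
import Fermat.Agent.LT.T2.H386.GPSSpec
import Fermat.Agent.LT.T2.H386.Soft1A
import Fermat.Agent.LT.T2.H386.Soft1B
import Fermat.Agent.LT.T2.H386.Soft1C
import Fermat.Agent.LT.T2.H386.Soft1D
import Fermat.Agent.LT.T2.H386.Soft1E
import Fermat.Agent.LT.T2.H386.SoftCoreB
import Fermat.Agent.LT.T2.H386.SoftCoreF

/-!
# Row LT, T2.03b in the CORE form (helper386): the kernel estimate with the hypotheses used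

OFF-MAIN.  `kernelEst_core386`: for ONE continuous `f` of compact support satisfying the
conclusion of `FDBound`, the kernel estimate holds for every continuous, bounded, left
`GL₂(K)`-invariant `ψ` with constant term `Ψ`.  No level, no `K_∞`-type, no smoothness is used
here.  (Serves the class of A0 and the class of T5; request of helper465.)
-/

set_option autoImplicit false
set_option linter.unusedSectionVars false
set_option linter.style.haveILetI false

open IsDedekindDomain NumberField MeasureTheory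
open scoped Pointwise
open Fermat.Agent.LT.H556.A0

noncomputable section

namespace Fermat.Agent.LT.T2.H386

open Fermat.Agent.LT.T2

attribute [local instance] Fermat.Agent.LT.T2.borelG

variable {K : Type} [Field K] [NumberField K]

attribute [local instance] borelAdl386 borelSpaceAdl386 borelSpaceG386

/-- The conclusion of `FDBound` for ONE function `f`. -/
def FDBoundFor386 (f : G K → ℂ) : Prop :=
  ∀ 𝒟 : Set (Adl K), IsCompact 𝒟 → ∀ N : ℕ,
    ∃ (C c : ℝ) (M : ℕ) (W : Set (G K)), 0 ≤ C ∧ 0 < c ∧ IsCompact W ∧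
      ∀ (x : G K) (t : ℝ), T1.HasHeight K x t → c ≤ t →
        ∃ (β : GL (Fin 2) K) (x' : G K), T1.IsUpperRat K β ∧ x = T1.ratG K β * x' ∧
          (∀ v ∈ 𝒟, conjUnip386 x' v ∈ W) ∧
          ∀ vs : List (Adl K), vs.length = M → (∀ v ∈ vs, v ∈ 𝒟) →
            ∀ h : G K, ‖fdiff386 x' vs f h‖ * t ^ N ≤ C

/-- The conclusion of `KernelEst` for ONE function `f`, for all continuous, bounded, left
`GL₂(K)`-invariant `ψ`. -/
def KernelEstFor386 (F : Frame K) (f : G K → ℂ) : Prop :=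
  ∀ N : ℕ, ∃ (C c : ℝ) (Ω : Set (G K)), 0 ≤ C ∧ 0 < c ∧ IsCompact Ω ∧
    ∀ ψ Ψ : G K → ℂ, Continuous ψ → (∃ C : ℝ, ∀ g : G K, ‖ψ g‖ ≤ C) →
      (∀ (γ : GL (Fin 2) K) (g : G K),
        ψ (Matrix.GeneralLinearGroup.map (algebraMap K (Adl K)) γ * g) = ψ g) →
      IsConstTerm ψ Ψ →
        ∀ (x : G K) (t : ℝ), T1.HasHeight K x t → c ≤ t →
          ‖conv F f ψ x - conv F f Ψ x‖ * t ^ N ≤ C * ∫ h in Ω, ‖ψ (x * h)‖ ∂F.μ

/-- **T2.03b, core form**: the soft part of the Gelfand--Piatetski-Shapiro estimate. -/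
theorem kernelEst_core386 (hT1 : T1.T1Out K) (F : Frame K) (f : G K → ℂ)
    (hfcont : Continuous f) (hfcpt : HasCompactSupport f) (hFD : FDBoundFor386 f) :
    KernelEstFor386 F f := by
  intro N
  obtain ⟨⟨hA1, hA2, hA3⟩, hG1, hG2, hG3⟩ := hT1.locComp
  haveI := hA1
  haveI := hA2
  haveI := hA3
  haveI := hG1
  haveI := hG2
  haveI := hG3
  haveI := F.haar
  obtain ⟨D, hDm, hD, hDc, hD0, hDtop⟩ :=
    hT1.addFundDom (Measure.addHaar : Measure (Adl K)) inferInstance
  set ν : Measure (Adl K) := Measure.addHaar with hν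
  obtain ⟨C, c, M, W, hC, hc, hW, H⟩ := hFD (closure D) hDc N
  refine ⟨2 * C, c, suppSeq386 W (tsupport f) (M + 1), by positivity, hc,
    isCompact_suppSeq386 hW hfcpt (M + 1), ?_⟩
  intro ψ Ψ hψc hψb hψl hΨ x t hx ht
  obtain ⟨β, x', hβ, hxx', hWx', hfd⟩ := H x t hx ht
  have htpos : 0 < t := lt_of_lt_of_le hc ht
  have htN : 0 < t ^ N := pow_pos htpos N
  let S : SoftCore386 K :=
    ⟨F.μ, F.haar, ν, inferInstance, D, hDm, hD, hDc, hD0.ne', hDtop.ne, ψ, Ψ, hψc, hψb, hΨ⟩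
  -- transfer from `x` to `x'`
  have eψ : ∀ h, ψ (x * h) = ψ (x' * h) := by
    intro h
    rw [hxx', mul_assoc]
    exact hψl β (x' * h)
  have eΨ : ∀ h, Ψ (x * h) = Ψ (x' * h) := by
    intro h
    rw [hxx', mul_assoc]
    exact constTerm_ratGCore386 hψl hΨ ν inferInstance D hD hD0.ne' hDtop.ne β hβ (x' * h)
  have e1 : conv F f ψ x = ∫ h, ψ (x' * h) * f h ∂F.μ := by
    show ∫ h, ψ (x * h) * f h ∂F.μ = _
    simp_rw [eψ]
  have e2 : conv F f Ψ x = ∫ h, Ψ (x' * h) * f h ∂F.μ := by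
    show ∫ h, Ψ (x * h) * f h ∂F.μ = _
    simp_rw [eΨ]
  have hid := (S.int_ker x' hfcont hfcpt M).1
  -- the bound of the kernel
  obtain ⟨Cf, hCf⟩ := hfcpt.exists_bound_of_continuous hfcont
  have hB : ∀ vs : List (Adl K), vs.length = M + 0 → (∀ v ∈ vs, v ∈ closure D) →
      ∀ h, ‖fdiff386 x' vs f h‖ ≤ C / t ^ N := by
    intro vs hvs hvsD h
    rw [le_div_iff₀ htN]
    exact hfd vs (by simpa using hvs) hvsD h
  have hkM : ∀ h, ‖ker386 ν D x' M f h‖ ≤ C / t ^ N := fun h =>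
    fdiff386_ker_bound ν D (closure D) subset_closure hD0.ne' hDtop.ne hDc x' hfcont Cf hCf
      (C / t ^ N) M 0 hB [] rfl (fun _ hv => absurd hv (List.not_mem_nil)) h
  have hk : ∀ h, ‖ker386 ν D x' (M + 1) f h‖ ≤ 2 * (C / t ^ N) := by
    intro h
    calc ‖ker386 ν D x' (M + 1) f h‖
        ≤ ‖ker386 ν D x' M f h‖ + ‖avgOp386 ν D x' (ker386 ν D x' M f) h‖ := norm_sub_le _ _
      _ ≤ C / t ^ N + C / t ^ N :=
        add_le_add (hkM h) (norm_avgOp386_le ν D hD0.ne' hDtop.ne x' _ hkM h)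
      _ = 2 * (C / t ^ N) := by ring
  -- the support of the kernel
  have hprops := ker386_props ν D hD0.ne' hDtop.ne hDc x' hfcont Cf hCf
    (W := W) (T := tsupport f) (fun v hv => hWx' v (subset_closure hv))
    (fun y hy => subset_closure hy) (M + 1)
  have hks := hprops.2.2
  set Ω := suppSeq386 W (tsupport f) (M + 1) with hΩ
  have hΩc : IsCompact Ω := isCompact_suppSeq386 hW hfcpt (M + 1)
  -- the estimate
  have hint : Integrable (fun h => ψ (x' * h) * ker386 ν D x' (M + 1) f h) F.μ :=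
    S.integrable_mul386 x' hψc hprops.1
      (HasCompactSupport.intro hΩc (fun y hy => by
        by_contra hne
        exact hy (hks y hne)))
  have hψΩ : IntegrableOn (fun h => ‖ψ (x' * h)‖) Ω F.μ :=
    (hψc.comp (continuous_const.mul continuous_id)).norm.continuousOn.integrableOn_compact hΩc
  have h1 : ‖∫ h, ψ (x' * h) * ker386 ν D x' (M + 1) f h ∂F.μ‖
      ≤ ∫ h in Ω, ‖ψ (x' * h)‖ * (2 * (C / t ^ N)) ∂F.μ := by
    refine le_trans (norm_integral_le_integral_norm _) ?_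
    rw [← integral_indicator hΩc.isClosed.measurableSet]
    refine integral_mono hint.norm
      ((integrable_indicator_iff hΩc.isClosed.measurableSet).mpr (hψΩ.mul_const _))
      (fun h => ?_)
    show ‖ψ (x' * h) * ker386 ν D x' (M + 1) f h‖
      ≤ Ω.indicator (fun h => ‖ψ (x' * h)‖ * (2 * (C / t ^ N))) h
    by_cases hh : ker386 ν D x' (M + 1) f h = 0
    · rw [hh, mul_zero, norm_zero]
      refine Set.indicator_nonneg (fun y _ => ?_) h
      exact mul_nonneg (norm_nonneg _) (by positivity)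
    · rw [Set.indicator_of_mem (hks h hh), norm_mul]
      exact mul_le_mul_of_nonneg_left (hk h) (norm_nonneg _)
  rw [e1, e2, ← hid]
  have h2 : ∫ h in Ω, ‖ψ (x' * h)‖ * (2 * (C / t ^ N)) ∂F.μ
      = (∫ h in Ω, ‖ψ (x * h)‖ ∂F.μ) * (2 * (C / t ^ N)) := by
    rw [integral_mul_const]
    simp_rw [eψ]
  rw [h2] at h1
  calc ‖∫ h, ψ (x' * h) * ker386 ν D x' (M + 1) f h ∂F.μ‖ * t ^ N
      ≤ ((∫ h in Ω, ‖ψ (x * h)‖ ∂F.μ) * (2 * (C / t ^ N))) * t ^ N :=
        mul_le_mul_of_nonneg_right h1 htN.le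
    _ = 2 * C * ∫ h in Ω, ‖ψ (x * h)‖ ∂F.μ := by
        field_simp

end Fermat.Agent.LT.T2.H386

end
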