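import Mathlib
import Fermat.Agent.LT.T2.H386.SoftCore
import Fermat.Agent.LT.T2.H465.GPSCoreCut

/-!
# Row LT, T2.23b = `H465.LeafSoft1Core` (helper386, on request of helper465)

OFF-MAIN.  `leafSoft1Core_386 : H465.LeafSoft1Core K`, i.e.
`T1Out → 𝔫 ≠ ⊥ → FDBoundCore K 𝔫 → KernelEstCore K 𝔫`, from `kernelEst_core386`.
Typed against the byte-identical copy of `LT/T2/H465/GPSCoreCut.lean` (helper465@784c57a84,
sha256 b3d0871d) and its closure (`T2/SpecTau.lean` 4d2b0fc2, `T2/H767/LocalL2Spec.lean`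
50e6aa79).
-/

set_option autoImplicit false

open IsDedekindDomain NumberField MeasureTheory
open Fermat.Agent.LT.H556.A0

noncomputable section

namespace Fermat.Agent.LT.T2.H386

open Fermat.Agent.LT.T2

attribute [local instance] Fermat.Agent.LT.T2.borelG

variable {K : Type} [Field K] [NumberField K]

/-- **T2.23b**: the soft part in the core form of helper465. -/
theorem leafSoft1Core_386 (K : Type) [Field K] [NumberField K] : H465.LeafSoft1Core K := by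
  intro hT1 𝔫 _ hFD F f hf N
  obtain ⟨C, c, Ω, hC, hc, hΩ, hK⟩ :=
    kernelEst_core386 hT1 F f hf.cont hf.cpt (fun 𝒟 h𝒟 N => hFD f hf 𝒟 h𝒟 N) N
  exact ⟨C, c, Ω, hC, hc, hΩ, fun ψ Ψ hψ hΨ => hK ψ Ψ hψ.cont hψ.bdd hψ.left_inv hΨ⟩

/-- `H386.LeafSoft1` again, through the core form. -/
theorem leafSoft1_of_core386 (K : Type) [Field K] [NumberField K] : LeafSoft1 K := by
  intro hT1 𝔫 _ hFD F f hf N
  obtain ⟨C, c, Ω, hC, hc, hΩ, hK⟩ :=
    kernelEst_core386 hT1 F f hf.cont hf.cpt (fun 𝒟 h𝒟 N => hFD f hf 𝒟 h𝒟 N) N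
  exact ⟨C, c, Ω, hC, hc, hΩ, fun ψ Ψ hψ hΨ => hK ψ Ψ hψ.cont hψ.bdd hψ.left_inv hΨ⟩

end Fermat.Agent.LT.T2.H386

end
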